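import Mathlib

set_option autoImplicit false

namespace Fermat.Agent.S22

open UpperHalfPlane hiding I
open Real Complex Derivative ModularForm
open scoped Manifold MatrixGroups Topology

/-- Iterates of the normalized derivative preserve holomorphy. -/
theorem iterate_D_mdifferentiable {F : ℍ → ℂ} (hF : MDiff F) (n : ℕ) : MDiff (D^[n] F) := by
  induction n with
  | zero => simpa using hF
  | succ n ih =>
    rw [Function.iterate_succ_apply']
    exact normalizedDerivOfComplex_mdifferentiable ih

/-- Iterates of `D` commute with scalar multiplication. -/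
theorem iterate_D_smul (c : ℂ) {F : ℍ → ℂ} (hF : MDiff F) (n : ℕ) :
    D^[n] (c • F) = c • D^[n] F := by
  induction n with
  | zero => rfl
  | succ n ih =>
    rw [Function.iterate_succ_apply', Function.iterate_succ_apply', ih,
      normalizedDerivOfComplex_smul _ _ (iterate_D_mdifferentiable hF n)]

/-- The normalized derivative of the automorphy factor `τ ↦ c τ + d`. -/
theorem D_denom (g : GL (Fin 2) ℝ) :
    D (fun τ : ℍ => denom g τ) = fun _ => (2 * π * I)⁻¹ * (g 1 0 : ℂ) := by
  ext z
  simp only [normalizedDerivOfComplex]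
  congr 1
  have h1 : HasDerivAt (fun w : ℂ => denom g w) (g 1 0 : ℂ) z := by
    simpa [denom] using ((hasDerivAt_id (z : ℂ)).const_mul (g 1 0 : ℂ)).add_const (g 1 1 : ℂ)
  have hcomp : ((fun τ : ℍ => denom g τ) ∘ ofComplex) =ᶠ[𝓝 (z : ℂ)] fun w : ℂ => denom g w := by
    filter_upwards [isOpen_upperHalfPlaneSet.mem_nhds z.im_pos] with w hw
    simp [Function.comp_apply, ofComplex_apply_of_im_pos hw]
  exact (h1.congr_of_eventuallyEq hcomp).deriv

/-- Leibniz rule for iterated `D` applied to (automorphy factor) times a function. -/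
theorem iterate_D_denom_mul (g : GL (Fin 2) ℝ) {G : ℍ → ℂ} (hG : MDiff G) (m : ℕ) :
    D^[m + 1] ((fun τ : ℍ => denom g τ) * G) =
      (fun τ : ℍ => denom g τ) * D^[m + 1] G +
        (((m : ℂ) + 1) * ((2 * π * I)⁻¹ * (g 1 0 : ℂ))) • D^[m] G := by
  induction m with
  | zero =>
    simp only [Function.iterate_succ, Function.iterate_zero, Function.comp_apply, id_eq,
      Nat.cast_zero, zero_add, one_mul]
    rw [normalizedDerivOfComplex_mul _ _ (mdifferentiable_denom g) hG, D_denom]
    ext z
    simp only [Pi.add_apply, Pi.mul_apply, Pi.smul_apply, smul_eq_mul]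
    ring
  | succ m ih =>
    rw [Function.iterate_succ_apply', ih]
    have h1 : MDiff ((fun τ : ℍ => denom g τ) * D^[m + 1] G) :=
      (mdifferentiable_denom g).mul (iterate_D_mdifferentiable hG (m + 1))
    have h2 : MDiff ((((m : ℂ) + 1) * ((2 * π * I)⁻¹ * (g 1 0 : ℂ))) • D^[m] G) :=
      (iterate_D_mdifferentiable hG m).const_smul _
    rw [normalizedDerivOfComplex_add _ _ h1 h2,
      normalizedDerivOfComplex_mul _ _ (mdifferentiable_denom g)
        (iterate_D_mdifferentiable hG (m + 1)),
      normalizedDerivOfComplex_smul _ _ (iterate_D_mdifferentiable hG m), D_denom,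
      ← Function.iterate_succ_apply' D (m + 1) G, ← Function.iterate_succ_apply' D m G]
    ext z
    simp only [Pi.add_apply, Pi.mul_apply, Pi.smul_apply, smul_eq_mul]
    push_cast
    ring

/-- Lowering the weight by one multiplies by the automorphy factor (up to the determinant). -/
theorem slash_sub_one (F : ℍ → ℂ) (k : ℤ) {g : GL (Fin 2) ℝ} (hg : 0 < g.val.det) :
    F ∣[k - 1] g = ((g.val.det : ℂ)⁻¹) • ((fun τ : ℍ => denom g τ) * F ∣[k] g) := by
  have hdet : g.det.val = g.val.det := Matrix.GeneralLinearGroup.val_det_apply g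
  have hdetℂ : (g.val.det : ℂ) ≠ 0 := Complex.ofReal_ne_zero.mpr hg.ne'
  ext z
  have hz := denom_ne_zero g z
  simp only [ModularForm.slash_apply, Pi.smul_apply, Pi.mul_apply, smul_eq_mul, hdet,
    abs_of_pos hg]
  rw [show -(k - 1) = -k + 1 by ring, zpow_add_one₀ hz, show k - 1 - 1 = (k - 1) - 1 by ring,
    zpow_sub_one₀ hdetℂ (k - 1)]
  ring

/-- **Bol's identity** for `GL(2, ℝ)⁺`. -/
theorem bol_identity {F : ℍ → ℂ} (hF : MDiff F) (n : ℕ) {g : GL (Fin 2) ℝ}
    (hg : 0 < g.val.det) :
    D^[n] (F ∣[(1 - n : ℤ)] g) = ((g.val.det : ℂ)⁻¹) ^ n • ((D^[n] F) ∣[(1 + n : ℤ)] g) := by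
  have hdetℂ : (g.val.det : ℂ) ≠ 0 := Complex.ofReal_ne_zero.mpr hg.ne'
  induction n with
  | zero => simp
  | succ n ih =>
    have hG : MDiff (F ∣[(1 - n : ℤ)] g) := hF.slash _ g
    have hH : MDiff (D^[n] F) := iterate_D_mdifferentiable hF n
    have hw : (1 - ((n + 1 : ℕ) : ℤ)) = (1 - (n : ℤ)) - 1 := by push_cast; ring
    rw [hw, slash_sub_one F _ hg,
      iterate_D_smul _ ((mdifferentiable_denom g).mul hG), iterate_D_denom_mul g hG n,
      Function.iterate_succ_apply' D n (F ∣[(1 - n : ℤ)] g), ih,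
      normalizedDerivOfComplex_smul _ _ (hH.slash _ g), normalizedDerivOfComplex_slash hH hg,
      Function.iterate_succ_apply' D n F]
    have hw2 : (1 + ((n + 1 : ℕ) : ℤ)) = (1 + (n : ℤ) + 2) - 1 := by push_cast; ring
    rw [hw2, slash_sub_one (D (D^[n] F)) _ hg]
    ext z
    have hz := denom_ne_zero g z
    simp only [Pi.add_apply, Pi.mul_apply, Pi.smul_apply, smul_eq_mul]
    push_cast
    generalize ((g.val.det : ℝ) : ℂ)⁻¹ = δ
    field_simp
    ring

theorem exists_antiderivative (q : Polynomial ℂ) (n : ℕ) (hq : q ∈ Polynomial.degreeLT ℂ n) :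
    ∃ P ∈ Polynomial.degreeLT ℂ (n + 1), Polynomial.derivative P = q := by
  refine ⟨∑ i ∈ Finset.range n, Polynomial.monomial (i + 1) (q.coeff i / ((i : ℂ) + 1)), ?_, ?_⟩
  · refine Submodule.sum_mem _ fun i hi => ?_
    rw [Polynomial.mem_degreeLT]
    refine lt_of_le_of_lt (Polynomial.degree_monomial_le _ _) ?_
    exact_mod_cast Nat.succ_lt_succ (Finset.mem_range.mp hi)
  · rw [map_sum]
    ext j
    simp only [Polynomial.derivative_monomial, Polynomial.finsetSum_coeff,
      Polynomial.coeff_monomial, Nat.add_sub_cancel]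
    rw [Finset.sum_ite_eq' (Finset.range n) j]
    split_ifs with h
    · have : ((j : ℂ) + 1) ≠ 0 := by exact_mod_cast Nat.succ_ne_zero j
      push_cast
      field_simp
    · rw [Polynomial.mem_degreeLT] at hq
      symm
      apply Polynomial.coeff_eq_zero_of_degree_lt
      refine lt_of_lt_of_le hq ?_
      rw [Finset.mem_range, not_lt] at h
      exact_mod_cast h

/-- A holomorphic function on the upper half plane killed by `D^n` is a polynomial of
degree `< n`. -/
theorem exists_polynomial_of_iterate_D_eq_zero (n : ℕ) :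
    ∀ {F : ℍ → ℂ}, MDiff F → D^[n] F = 0 →
      ∃ p ∈ Polynomial.degreeLT ℂ n, ∀ z : ℍ, F z = p.eval (z : ℂ) := by
  induction n with
  | zero =>
    intro F _ h
    refine ⟨0, Submodule.zero_mem _, fun z => ?_⟩
    rw [Function.iterate_zero, id_eq] at h
    rw [h]; simp
  | succ n ih =>
    intro F hF h
    rw [Function.iterate_succ_apply] at h
    obtain ⟨q, hq, hqF⟩ := ih (normalizedDerivOfComplex_mdifferentiable hF) h
    obtain ⟨P, hP, hPq⟩ := exists_antiderivative ((2 * π * I) • q) n
      (Submodule.smul_mem _ _ hq)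
    have hFd : DifferentiableOn ℂ (F ∘ ofComplex) upperHalfPlaneSet :=
      UpperHalfPlane.mdifferentiable_iff.mp hF
    have hPd : DifferentiableOn ℂ (fun w : ℂ => P.eval w) upperHalfPlaneSet :=
      P.differentiable.differentiableOn
    have hderiv : upperHalfPlaneSet.EqOn (deriv (F ∘ ofComplex))
        (deriv (fun w : ℂ => P.eval w)) := by
      intro w hw
      have h1 := hqF (ofComplex w)
      simp only [normalizedDerivOfComplex] at h1
      rw [ofComplex_apply_of_im_pos hw] at h1
      have h2pi : (2 * π * I : ℂ) ≠ 0 := by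
        simp [Real.pi_ne_zero]
      have h2 : deriv (F ∘ ofComplex) w = (2 * π * I) * q.eval w := by
        have : deriv (F ∘ ofComplex) ((⟨w, hw⟩ : ℍ) : ℂ) = deriv (F ∘ ofComplex) w := rfl
        rw [← h1]
        field_simp
      rw [h2, Polynomial.deriv, hPq, Polynomial.eval_smul, smul_eq_mul]
    have hconn : IsPreconnected upperHalfPlaneSet :=
      (convex_halfSpace_im_gt 0).isPreconnected
    obtain ⟨a, ha⟩ := isOpen_upperHalfPlaneSet.exists_eq_add_of_deriv_eq hconn hFd hPd hderiv
    refine ⟨P + Polynomial.C a, ?_, fun z => ?_⟩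
    · refine Submodule.add_mem _ hP ?_
      rw [Polynomial.mem_degreeLT]
      refine lt_of_le_of_lt Polynomial.degree_C_le ?_
      exact_mod_cast Nat.succ_pos n
    · have := ha z.im_pos
      simp only [Function.comp_apply, ofComplex_apply] at this
      rw [this, Polynomial.eval_add, Polynomial.eval_C]

/-- Iterates of `D` are additive. -/
theorem iterate_D_sub {F G : ℍ → ℂ} (hF : MDiff F) (hG : MDiff G) (n : ℕ) :
    D^[n] (F - G) = D^[n] F - D^[n] G := by
  induction n with
  | zero => rfl
  | succ n ih =>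
    rw [Function.iterate_succ_apply', Function.iterate_succ_apply', Function.iterate_succ_apply',
      ih, normalizedDerivOfComplex_sub _ _ (iterate_D_mdifferentiable hF n)
        (iterate_D_mdifferentiable hG n)]

/-- **Bol's identity** for `SL(2, ℤ)`. -/
theorem bol_identity_SL {F : ℍ → ℂ} (hF : MDiff F) (n : ℕ) (γ : SL(2, ℤ)) :
    D^[n] (F ∣[(1 - n : ℤ)] γ) = (D^[n] F) ∣[(1 + n : ℤ)] γ := by
  have hdet : (γ : GL (Fin 2) ℝ).val.det = 1 := by
    rw [← Matrix.GeneralLinearGroup.val_det_apply]; simp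
  rw [ModularForm.SL_slash, ModularForm.SL_slash,
    bol_identity hF n (g := (γ : GL (Fin 2) ℝ)) (by rw [hdet]; exact one_pos), hdet]
  simp

/-- Period polynomials: if `D^n u = f` and `f` is invariant of weight `1 + n` under `γ`, then
`u ∣[1 - n] γ - u` is a polynomial of degree `< n`. -/
theorem exists_polynomial_slash_sub {u f : ℍ → ℂ} (hu : MDiff u) (n : ℕ) (hD : D^[n] u = f)
    (γ : SL(2, ℤ)) (hf : f ∣[(1 + n : ℤ)] γ = f) :
    ∃ p ∈ Polynomial.degreeLT ℂ n, ∀ z : ℍ, (u ∣[(1 - n : ℤ)] γ - u) z = p.eval (z : ℂ) := by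
  have hu' : MDiff (u ∣[(1 - n : ℤ)] γ) := by
    rw [ModularForm.SL_slash]; exact hu.slash _ _
  refine exists_polynomial_of_iterate_D_eq_zero n (hu'.sub hu) ?_
  rw [iterate_D_sub hu' hu, bol_identity_SL hu, hD, hf, sub_self]

end Fermat.Agent.S22
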