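import Mathlib
import Fermat.Agent.S22.Bol

set_option autoImplicit false

namespace Fermat.Agent.S22

open UpperHalfPlane hiding I
open Complex Filter Function Derivative Metric
open scoped Real Manifold Topology

local notation "𝕢" => Periodic.qParam

/-- Holomorphic on the upper half plane, `h`-periodic and vanishing at `i∞`. -/
def IsCuspPeriodic (h : ℝ) (g : ℍ → ℂ) : Prop :=
  MDiff g ∧ Periodic (g ∘ ofComplex) h ∧ IsZeroAtImInfty g

lemma qParam_add_period {h : ℝ} (hh : h ≠ 0) (z : ℂ) : 𝕢 h (z + h) = 𝕢 h z := by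
  simp only [Periodic.qParam]
  have : 2 * ↑π * I * (z + ↑h) / ↑h = 2 * ↑π * I * z / ↑h + 2 * π * I := by
    have : (h : ℂ) ≠ 0 := by exact_mod_cast hh
    field_simp
  rw [this, Complex.exp_add, Complex.exp_two_pi_mul_I, mul_one]

lemma periodic_comp_ofComplex_of_qParam {h : ℝ} (hh : h ≠ 0) (H : ℂ → ℂ) :
    Periodic ((fun τ : ℍ => H (𝕢 h τ)) ∘ ofComplex) h := by
  intro w
  by_cases hw : 0 < im w
  · have hw' : 0 < im (w + h) := by simpa using hw
    simp only [comp_apply, ofComplex_apply_of_im_pos hw', ofComplex_apply_of_im_pos hw]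
    show H (𝕢 h (w + h)) = H (𝕢 h w)
    rw [qParam_add_period hh]
  · have hw0 : im w ≤ 0 := not_lt.mp hw
    have hw' : im (w + h) ≤ 0 := by simpa using hw0
    simp [ofComplex_apply_of_im_nonpos hw', ofComplex_apply_of_im_nonpos hw0]

theorem exists_primitive {h : ℝ} (hh : 0 < h) {g : ℍ → ℂ} (hg : IsCuspPeriodic h g) :
    ∃ u : ℍ → ℂ, IsCuspPeriodic h u ∧ D u = g := by
  obtain ⟨hgd, hgp, hgz⟩ := hg
  set G := UpperHalfPlane.cuspFunction h g with hGdef
  have hGdiff : DifferentiableOn ℂ G (ball 0 1) :=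
    differentiableOn_cuspFunction_ball hh hgp hgd hgz.isBoundedAtImInfty
  have hG0 : G 0 = 0 := by
    rw [hGdef, cuspFunction_apply_zero hh
      (analyticAt_cuspFunction_zero hh hgp hgd hgz.isBoundedAtImInfty) hgp]
    exact hgz.valueAtInfty_eq_zero
  have hball : ball (0 : ℂ) 1 ∈ 𝓝 (0 : ℂ) := ball_mem_nhds 0 one_pos
  have hG1diff : DifferentiableOn ℂ (dslope G 0) (ball 0 1) :=
    (Complex.differentiableOn_dslope hball).mpr hGdiff
  obtain ⟨H, hH0, hH⟩ := (hG1diff.isExactOn_ball).with_val_at 0 0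
  have hqball : ∀ z : ℂ, 0 < z.im → 𝕢 h z ∈ ball (0 : ℂ) 1 := fun z hz => by
    rw [mem_ball_zero_iff]; exact Periodic.norm_qParam_lt_one hh hz
  have hderiv : ∀ z : ℂ, 0 < z.im →
      HasDerivAt (fun w : ℂ => (h : ℂ) * H (𝕢 h w)) (2 * π * I * G (𝕢 h z)) z := by
    intro z hz
    have hq' : HasStrictDerivAt (𝕢 h) (𝕢 h z * (2 * π * I / h)) z := by
      simpa only [id_eq, mul_one] using! (((hasStrictDerivAt_id z).const_mul _).div_const _).cexp
    have hq : HasDerivAt (𝕢 h) (𝕢 h z * (2 * π * I / h)) z := hq'.hasDerivAt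
    have hHq := hH (𝕢 h z) (hqball z hz)
    have hcomp := (hHq.comp z hq).const_mul (h : ℂ)
    have hne : 𝕢 h z ≠ 0 := Periodic.qParam_ne_zero z
    have hval : (h : ℂ) * (dslope G 0 (𝕢 h z) * (𝕢 h z * (2 * π * I / h)))
        = 2 * π * I * G (𝕢 h z) := by
      rw [dslope_of_ne _ hne, slope_def_field, hG0, sub_zero, sub_zero]
      have : (h : ℂ) ≠ 0 := by exact_mod_cast hh.ne'
      field_simp
    rw [← hval]
    exact hcomp
  refine ⟨fun τ => (h : ℂ) * H (𝕢 h τ), ⟨?_, ?_, ?_⟩, ?_⟩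
  · rw [UpperHalfPlane.mdifferentiable_iff]
    intro z hz
    have hz' : 0 < z.im := hz
    refine ((hderiv z hz').differentiableAt.differentiableWithinAt).congr ?_ ?_
    · intro w hw
      have hw' : 0 < w.im := hw
      simp [comp_apply, ofComplex_apply_of_im_pos hw']
    · simp [comp_apply, ofComplex_apply_of_im_pos hz']
  · exact periodic_comp_ofComplex_of_qParam hh.ne' (fun q => (h : ℂ) * H q)
  · have hcont : ContinuousAt H 0 := (hH 0 (mem_ball_self one_pos)).continuousAt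
    have h1 : Tendsto (fun τ : ℍ => H (𝕢 h τ)) atImInfty (𝓝 (H 0)) :=
      hcont.tendsto.comp (qParam_tendsto_atImInfty hh)
    rw [hH0] at h1
    have h2 := h1.const_mul (h : ℂ)
    rw [mul_zero] at h2
    exact h2
  · ext τ
    have hτ : 0 < (τ : ℂ).im := τ.im_pos
    have heq : ((fun τ : ℍ => (h : ℂ) * H (𝕢 h τ)) ∘ ofComplex) =ᶠ[𝓝 (τ : ℂ)]
        fun w : ℂ => (h : ℂ) * H (𝕢 h w) := by
      filter_upwards [isOpen_upperHalfPlaneSet.mem_nhds hτ] with w hw
      have hw' : 0 < w.im := hw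
      simp [comp_apply, ofComplex_apply_of_im_pos hw']
    simp only [normalizedDerivOfComplex]
    have hGτ : G (𝕢 h τ) = g τ := eq_cuspFunction τ hh.ne' hgp
    rw [heq.deriv_eq, (hderiv τ hτ).deriv, hGτ]
    have : (2 * (π : ℂ) * I) ≠ 0 := Complex.two_pi_I_ne_zero
    field_simp

lemma IsCuspPeriodic.add {h : ℝ} {f g : ℍ → ℂ} (hf : IsCuspPeriodic h f)
    (hg : IsCuspPeriodic h g) : IsCuspPeriodic h (f + g) := by
  refine ⟨hf.1.add hg.1, ?_, ?_⟩
  · intro w
    have h1 := hf.2.1 w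
    have h2 := hg.2.1 w
    simp only [comp_apply, Pi.add_apply] at h1 h2 ⊢
    rw [h1, h2]
  · exact hf.2.2.add hg.2.2

lemma IsCuspPeriodic.smul {h : ℝ} {f : ℍ → ℂ} (c : ℂ) (hf : IsCuspPeriodic h f) :
    IsCuspPeriodic h (c • f) := by
  refine ⟨hf.1.const_smul c, ?_, ?_⟩
  · intro w
    have h1 := hf.2.1 w
    simp only [comp_apply, Pi.smul_apply] at h1 ⊢
    rw [h1]
  · exact hf.2.2.smul c

lemma IsCuspPeriodic.zero (h : ℝ) : IsCuspPeriodic h (0 : ℍ → ℂ) := by
  refine ⟨mdifferentiable_const, fun w => rfl, ?_⟩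
  exact zero_zeroAtFilter _

lemma hasStrictDerivAt_qParam (h : ℝ) (z : ℂ) :
    HasStrictDerivAt (𝕢 h) (𝕢 h z * (2 * π * I / h)) z := by
  simpa only [id_eq, mul_one] using! (((hasStrictDerivAt_id z).const_mul _).div_const _).cexp

/-- `D v` in terms of the cusp function of `v`. -/
lemma D_eq_cuspFunction_deriv {h : ℝ} (hh : 0 < h) {v : ℍ → ℂ} (hv : IsCuspPeriodic h v)
    (τ : ℍ) :
    D v τ = (h : ℂ)⁻¹ * 𝕢 h τ * deriv (UpperHalfPlane.cuspFunction h v) (𝕢 h τ) := by
  obtain ⟨hvd, hvp, hvz⟩ := hv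
  set V := UpperHalfPlane.cuspFunction h v with hV
  have hτ : 0 < (τ : ℂ).im := τ.im_pos
  have heq : (v ∘ ofComplex) =ᶠ[𝓝 (τ : ℂ)] fun w : ℂ => V (𝕢 h w) := by
    filter_upwards [isOpen_upperHalfPlaneSet.mem_nhds hτ] with w hw
    have hw' : 0 < w.im := hw
    simp only [comp_apply, ofComplex_apply_of_im_pos hw']
    exact (eq_cuspFunction ⟨w, hw'⟩ hh.ne' hvp).symm
  have hq1 : ‖𝕢 h (τ : ℂ)‖ < 1 := Periodic.norm_qParam_lt_one hh hτ
  have hVd : DifferentiableAt ℂ V (𝕢 h (τ : ℂ)) :=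
    differentiableAt_cuspFunction hh hvp hvd hvz.isBoundedAtImInfty hq1
  have hchain : HasDerivAt (fun w : ℂ => V (𝕢 h w))
      (deriv V (𝕢 h (τ : ℂ)) * (𝕢 h (τ : ℂ) * (2 * π * I / h))) (τ : ℂ) :=
    hVd.hasDerivAt.comp (τ : ℂ) (hasStrictDerivAt_qParam h τ).hasDerivAt
  simp only [normalizedDerivOfComplex]
  rw [heq.deriv_eq, hchain.deriv]
  have h1 : (2 * (π : ℂ) * I) ≠ 0 := Complex.two_pi_I_ne_zero
  have h2 : (h : ℂ) ≠ 0 := by exact_mod_cast hh.ne'
  field_simp

lemma IsCuspPeriodic.D {h : ℝ} (hh : 0 < h) {v : ℍ → ℂ} (hv : IsCuspPeriodic h v) :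
    IsCuspPeriodic h (D v) := by
  have hv' := hv
  obtain ⟨hvd, hvp, hvz⟩ := hv
  refine ⟨normalizedDerivOfComplex_mdifferentiable hvd, ?_, ?_⟩
  · intro w
    by_cases hw : 0 < im w
    · have hw' : 0 < im (w + h) := by simpa using hw
      simp only [comp_apply, ofComplex_apply_of_im_pos hw', ofComplex_apply_of_im_pos hw,
        normalizedDerivOfComplex]
      congr 1
      show deriv (v ∘ ofComplex) (w + h) = deriv (v ∘ ofComplex) w
      have hfun : (fun x : ℂ => (v ∘ ofComplex) (x + h)) = v ∘ ofComplex := funext fun x => hvp x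
      rw [← deriv_comp_add_const, hfun]
    · have hw0 : im w ≤ 0 := not_lt.mp hw
      have hw' : im (w + h) ≤ 0 := by simpa using hw0
      simp [ofComplex_apply_of_im_nonpos hw', ofComplex_apply_of_im_nonpos hw0]
  · set V := UpperHalfPlane.cuspFunction h v with hV
    have hVan : AnalyticAt ℂ V 0 :=
      analyticAt_cuspFunction_zero hh hvp hvd hvz.isBoundedAtImInfty
    have hcont : ContinuousAt (fun q : ℂ => (h : ℂ)⁻¹ * q * deriv V q) 0 :=
      (continuousAt_const.mul continuousAt_id).mul hVan.deriv.continuousAt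
    have h1 : Tendsto (fun τ : ℍ => (h : ℂ)⁻¹ * 𝕢 h τ * deriv V (𝕢 h τ)) atImInfty
        (𝓝 ((h : ℂ)⁻¹ * 0 * deriv V 0)) :=
      hcont.tendsto.comp (qParam_tendsto_atImInfty hh)
    rw [mul_zero, zero_mul] at h1
    refine h1.congr fun τ => ?_
    exact (D_eq_cuspFunction_deriv hh hv' τ).symm

lemma IsCuspPeriodic.iterate_D {h : ℝ} (hh : 0 < h) {v : ℍ → ℂ} (hv : IsCuspPeriodic h v)
    (n : ℕ) : IsCuspPeriodic h (D^[n] v) := by
  induction n with
  | zero => simpa using hv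
  | succ n ih =>
    rw [Function.iterate_succ_apply']
    exact ih.D hh

lemma isPreconnected_upperHalfPlaneSet : IsPreconnected upperHalfPlaneSet :=
  (convex_halfSpace_im_gt 0).isPreconnected

/-- A holomorphic function on the upper half plane with `D v = 0` is constant. -/
lemma const_of_D_eq_zero {v : ℍ → ℂ} (hv : MDiff v) (h0 : D v = 0) (τ τ' : ℍ) : v τ = v τ' := by
  have hdiff : DifferentiableOn ℂ (v ∘ ofComplex) upperHalfPlaneSet :=
    UpperHalfPlane.mdifferentiable_iff.mp hv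
  have hderiv : upperHalfPlaneSet.EqOn (deriv (v ∘ ofComplex)) 0 := by
    intro z hz
    have := congrFun h0 ⟨z, hz⟩
    simp only [normalizedDerivOfComplex, Pi.zero_apply] at this
    rcases mul_eq_zero.mp this with h | h
    · exact absurd (inv_eq_zero.mp h) Complex.two_pi_I_ne_zero
    · simpa using h
  have := isOpen_upperHalfPlaneSet.is_const_of_deriv_eq_zero isPreconnected_upperHalfPlaneSet
    hdiff hderiv (x := (τ : ℂ)) (y := (τ' : ℂ)) τ.im_pos τ'.im_pos
  simpa [comp_apply, ofComplex_apply] using this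

lemma eq_zero_of_D_eq_zero {v : ℍ → ℂ} (hv : MDiff v) (hz : IsZeroAtImInfty v) (h0 : D v = 0) :
    v = 0 := by
  ext τ
  have hconst : v = fun _ => v τ := funext fun τ' => const_of_D_eq_zero hv h0 τ' τ
  have h1 : Tendsto (fun _ : ℍ => v τ) atImInfty (𝓝 0) := by
    have : Tendsto v atImInfty (𝓝 0) := hz
    rwa [hconst] at this
  simpa using tendsto_nhds_unique h1 tendsto_const_nhds |>.symm

/-- Uniqueness of iterated primitives in the cusp-periodic class. -/
theorem eq_zero_of_iterate_D_eq_zero {h : ℝ} (hh : 0 < h) (n : ℕ) :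
    ∀ {v : ℍ → ℂ}, IsCuspPeriodic h v → D^[n] v = 0 → v = 0 := by
  induction n with
  | zero => intro v _ h0; simpa using h0
  | succ n ih =>
    intro v hv h0
    rw [Function.iterate_succ_apply] at h0
    have hDv : D v = 0 := ih (hv.D hh) h0
    exact eq_zero_of_D_eq_zero hv.1 hv.2.2 hDv

theorem exists_iterate_primitive {h : ℝ} (hh : 0 < h) (n : ℕ) :
    ∀ {g : ℍ → ℂ}, IsCuspPeriodic h g → ∃ u : ℍ → ℂ, IsCuspPeriodic h u ∧ D^[n] u = g := by
  induction n with
  | zero => intro g hg; exact ⟨g, hg, rfl⟩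
  | succ n ih =>
    intro g hg
    obtain ⟨v, hv, hvg⟩ := ih hg
    obtain ⟨u, hu, huv⟩ := exists_primitive hh hv
    refine ⟨u, hu, ?_⟩
    rw [Function.iterate_succ_apply, huv, hvg]

lemma iterate_D_add {F G : ℍ → ℂ} (hF : MDiff F) (hG : MDiff G) (n : ℕ) :
    D^[n] (F + G) = D^[n] F + D^[n] G := by
  induction n with
  | zero => rfl
  | succ n ih =>
    rw [Function.iterate_succ_apply', Function.iterate_succ_apply', Function.iterate_succ_apply',
      ih, normalizedDerivOfComplex_add _ _ (iterate_D_mdifferentiable hF n) (iterate_D_mdifferentiable hG n)]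

lemma IsCuspPeriodic.sub {h : ℝ} {f g : ℍ → ℂ} (hf : IsCuspPeriodic h f)
    (hg : IsCuspPeriodic h g) : IsCuspPeriodic h (f - g) := by
  have := hf.add (hg.smul (-1))
  have heq : f + (-1 : ℂ) • g = f - g := by
    ext τ; simp [sub_eq_add_neg]
  rwa [heq] at this

/-- Two cusp-periodic functions with the same `n`-th derivative are equal. -/
theorem eq_of_iterate_D_eq {h : ℝ} (hh : 0 < h) (n : ℕ) {u v : ℍ → ℂ}
    (hu : IsCuspPeriodic h u) (hv : IsCuspPeriodic h v) (huv : D^[n] u = D^[n] v) : u = v := by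
  have h0 : D^[n] (u - v) = 0 := by rw [iterate_D_sub hu.1 hv.1, huv, sub_self]
  exact sub_eq_zero.mp (eq_zero_of_iterate_D_eq_zero hh n (hu.sub hv) h0)

open Classical in
/-- The `n`-fold Eichler primitive of a cusp-periodic function of period `h`
(and `0` for other inputs). -/
noncomputable def eichlerInt (h : ℝ) (n : ℕ) (g : ℍ → ℂ) : ℍ → ℂ :=
  if hg : 0 < h ∧ IsCuspPeriodic h g then (exists_iterate_primitive hg.1 n hg.2).choose else 0

lemma eichlerInt_spec {h : ℝ} (hh : 0 < h) (n : ℕ) {g : ℍ → ℂ} (hg : IsCuspPeriodic h g) :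
    IsCuspPeriodic h (eichlerInt h n g) ∧ D^[n] (eichlerInt h n g) = g := by
  have hc : 0 < h ∧ IsCuspPeriodic h g := ⟨hh, hg⟩
  rw [eichlerInt, dif_pos hc]
  exact (exists_iterate_primitive hc.1 n hc.2).choose_spec

lemma eichlerInt_isCuspPeriodic {h : ℝ} (hh : 0 < h) (n : ℕ) {g : ℍ → ℂ}
    (hg : IsCuspPeriodic h g) : IsCuspPeriodic h (eichlerInt h n g) :=
  (eichlerInt_spec hh n hg).1

lemma iterate_D_eichlerInt {h : ℝ} (hh : 0 < h) (n : ℕ) {g : ℍ → ℂ}
    (hg : IsCuspPeriodic h g) : D^[n] (eichlerInt h n g) = g :=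
  (eichlerInt_spec hh n hg).2

/-- Characterisation of the Eichler primitive. -/
theorem eq_eichlerInt {h : ℝ} (hh : 0 < h) (n : ℕ) {u g : ℍ → ℂ}
    (hu : IsCuspPeriodic h u) (hug : D^[n] u = g) : u = eichlerInt h n g := by
  have hg : IsCuspPeriodic h g := hug ▸ hu.iterate_D hh n
  exact eq_of_iterate_D_eq hh n hu (eichlerInt_isCuspPeriodic hh n hg)
    (hug.trans (iterate_D_eichlerInt hh n hg).symm)

theorem eichlerInt_add {h : ℝ} (hh : 0 < h) (n : ℕ) {f g : ℍ → ℂ}
    (hf : IsCuspPeriodic h f) (hg : IsCuspPeriodic h g) :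
    eichlerInt h n (f + g) = eichlerInt h n f + eichlerInt h n g := by
  symm
  refine eq_eichlerInt hh n
    ((eichlerInt_isCuspPeriodic hh n hf).add (eichlerInt_isCuspPeriodic hh n hg)) ?_
  rw [iterate_D_add (eichlerInt_isCuspPeriodic hh n hf).1 (eichlerInt_isCuspPeriodic hh n hg).1,
    iterate_D_eichlerInt hh n hf, iterate_D_eichlerInt hh n hg]

theorem eichlerInt_smul {h : ℝ} (hh : 0 < h) (n : ℕ) (c : ℂ) {f : ℍ → ℂ}
    (hf : IsCuspPeriodic h f) :
    eichlerInt h n (c • f) = c • eichlerInt h n f := by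
  symm
  refine eq_eichlerInt hh n ((eichlerInt_isCuspPeriodic hh n hf).smul c) ?_
  rw [iterate_D_smul c (eichlerInt_isCuspPeriodic hh n hf).1, iterate_D_eichlerInt hh n hf]

lemma IsCuspPeriodic.nat_mul {h : ℝ} {g : ℍ → ℂ} (hg : IsCuspPeriodic h g) (m : ℕ) :
    IsCuspPeriodic ((m : ℝ) * h) g := by
  refine ⟨hg.1, ?_, hg.2.2⟩
  have := hg.2.1.nat_mul m
  simpa using this

/-- The Eichler primitive does not depend on the chosen period. -/
theorem eichlerInt_nat_mul {h : ℝ} (hh : 0 < h) (n : ℕ) {m : ℕ} (hm : 0 < m) {g : ℍ → ℂ}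
    (hg : IsCuspPeriodic h g) : eichlerInt ((m : ℝ) * h) n g = eichlerInt h n g := by
  have hmh : 0 < (m : ℝ) * h := mul_pos (by exact_mod_cast hm) hh
  symm
  exact eq_eichlerInt hmh n ((eichlerInt_isCuspPeriodic hh n hg).nat_mul m)
    (iterate_D_eichlerInt hh n hg)

/-- Cusp forms are cusp-periodic for every positive strict period of their level group. -/
lemma isCuspPeriodic_of_cuspFormClass {Γ : Subgroup (GL (Fin 2) ℝ)} {k : ℤ} {F : Type*}
    [FunLike F ℍ ℂ] [CuspFormClass F Γ k] (f : F) {h : ℝ} (hh : 0 < h)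
    (hΓ : h ∈ Γ.strictPeriods) : IsCuspPeriodic h (f : ℍ → ℂ) := by
  have : Fact (IsCusp OnePoint.infty Γ) := ⟨Γ.isCusp_of_mem_strictPeriods hh hΓ⟩
  exact ⟨CuspFormClass.holo f, SlashInvariantFormClass.periodic_comp_ofComplex f hΓ,
    CuspFormClass.zero_at_infty f⟩

end Fermat.Agent.S22
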