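import Mathlib
import Fermat.Prelude.Thm_Subgroup_IsArithmetic_exists_nat_mem_strictPeriods_conj
import Fermat.Agent.S22.Primitive

set_option autoImplicit false

namespace Fermat.Agent.S22

open UpperHalfPlane hiding I
open Complex Filter Function Derivative
open scoped Real Manifold Topology MatrixGroups ModularForm Pointwise

/-- All `SL(2, ℤ)`-translates of a cusp form for an arithmetic group are cusp-periodic with a
common period. -/
theorem exists_period_slash {Γ : Subgroup (GL (Fin 2) ℝ)} [Γ.IsArithmetic] {k : ℤ} {F : Type*}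
    [FunLike F ℍ ℂ] [CuspFormClass F Γ k] (f : F) :
    ∃ M : ℕ, 0 < M ∧ ∀ γ : SL(2, ℤ), IsCuspPeriodic (M : ℝ) ((f : ℍ → ℂ) ∣[k] γ) := by
  obtain ⟨M, hM, hper⟩ := Subgroup.IsArithmetic.exists_nat_mem_strictPeriods_conj Γ
  refine ⟨M, hM, fun γ => ?_⟩
  have hMpos : (0 : ℝ) < M := by exact_mod_cast hM
  have h1 := hper γ⁻¹
  have h2 : (M : ℝ) ∈ (ConjAct.toConjAct (Matrix.SpecialLinearGroup.mapGL ℝ γ)⁻¹ • Γ).strictPeriods := by
    simpa using h1
  have := isCuspPeriodic_of_cuspFormClass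
    (CuspForm.translate f (Matrix.SpecialLinearGroup.mapGL ℝ γ)) hMpos h2
  exact this

end Fermat.Agent.S22
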