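import Mathlib
import Fermat.Prelude.Def_CuspForm_HeckeAlgebra
import Fermat.Prelude.Thm_CongruenceSubgroup_one_mem_strictPeriods_Gamma0

set_option autoImplicit false

open CongruenceSubgroup UpperHalfPlane Matrix.SpecialLinearGroup
open scoped MatrixGroups ModularForm

namespace Fermat.Agent.S22

noncomputable section

/-- (R2) it suffices to treat `S = ∅`. -/
theorem finite_of_finite_empty (N : ℕ) [NeZero N] (k : ℤ) (S : Set ℕ)
    (h : Module.Finite ℤ (CuspForm.heckeAlgebra N k (∅ : Set ℕ))) :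
    Module.Finite ℤ (CuspForm.heckeAlgebra N k S) := by
  have hle : CuspForm.heckeAlgebra N k S ≤ CuspForm.heckeAlgebra N k (∅ : Set ℕ) :=
    CuspForm.heckeAlgebra_mono (Set.empty_subset S)
  have hN : IsNoetherian ℤ (CuspForm.heckeAlgebra N k (∅ : Set ℕ)) :=
    isNoetherian_of_isNoetherianRing_of_finite ℤ _
  exact Module.Finite.of_injective (Subalgebra.inclusion hle).toLinearMap
    (Subalgebra.inclusion_injective hle)

/-- a Hecke algebra acting on a trivial space is finite -/
theorem finite_of_subsingleton (N : ℕ) [NeZero N] (k : ℤ) (S : Set ℕ)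
    (h : Subsingleton (CuspForm (Gamma0 N) k)) :
    Module.Finite ℤ (CuspForm.heckeAlgebra N k S) := by
  have h1 : Subsingleton (Module.End ℂ (CuspForm (Gamma0 N) k)) :=
    ⟨fun a b => LinearMap.ext fun x => Subsingleton.elim _ _⟩
  have h2 : Subsingleton (CuspForm.heckeAlgebra N k S) :=
    ⟨fun a b => Subtype.ext (Subsingleton.elim _ _)⟩
  exact Module.Finite.of_surjective (0 : ℤ →ₗ[ℤ] CuspForm.heckeAlgebra N k S)
    (fun x => ⟨0, Subsingleton.elim _ _⟩)

theorem cuspForm_eq_zero_of_neg (N : ℕ) [NeZero N] {k : ℤ} (hk : k < 0)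
    (f : CuspForm (Gamma0 N) k) : f = 0 := by
  have h := ModularForm.isZero_of_neg_weight hk (ModularFormClass.modularForm f)
  apply DFunLike.coe_injective
  have := congrArg (fun g : ModularForm (Gamma0 N) k => (g : ℍ → ℂ)) h
  simpa using this

theorem cuspForm_eq_zero_of_zero (N : ℕ) [NeZero N] (f : CuspForm (Gamma0 N) 0) : f = 0 := by
  obtain ⟨c, hc⟩ := ModularForm.eq_const_of_weight_zero (ModularFormClass.modularForm f)
  have hc' : (f : ℍ → ℂ) = Function.const ℍ c := by simpa using hc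
  have hzero : IsZeroAtImInfty (f : ℍ → ℂ) := by
    have : Fact (IsCusp OnePoint.infty (Subgroup.map (mapGL ℝ) (Gamma0 N))) :=
      ⟨Subgroup.isCusp_of_mem_strictPeriods one_pos
        (CongruenceSubgroup.one_mem_strictPeriods_Gamma0 N)⟩
    exact CuspFormClass.zero_at_infty f
  have hc0 : c = 0 := by
    rw [hc'] at hzero
    have : Filter.Tendsto (Function.const ℍ c) atImInfty (nhds 0) := hzero
    have h2 : Filter.Tendsto (Function.const ℍ c) atImInfty (nhds c) := tendsto_const_nhds
    exact tendsto_nhds_unique h2 this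
  apply DFunLike.coe_injective
  rw [hc', hc0]
  rfl

theorem cuspForm_eq_zero_of_odd (N : ℕ) {k : ℤ} (hk : Odd k)
    (f : CuspForm (Gamma0 N) k) : f = 0 := by
  have hmem : (-1 : GL (Fin 2) ℝ) ∈ Subgroup.map (mapGL ℝ) (Gamma0 N) := by
    refine ⟨-1, ?_, ?_⟩
    · show (-1 : SL(2, ℤ)) ∈ Gamma0 N
      rw [Gamma0_mem]
      simp
    · ext i j
      simp [mapGL]
  have h := ModularForm.eq_zero_of_neg_one_mem hmem hk (ModularFormClass.modularForm f)
  apply DFunLike.coe_injective
  have := congrArg (fun g : ModularForm (Gamma0 N) k => (g : ℍ → ℂ)) h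
  simpa using this

/-- (R3) trivial weights -/
theorem finite_of_nonpos_or_odd (N : ℕ) [NeZero N] (k : ℤ) (S : Set ℕ) (hk : k ≤ 0 ∨ Odd k) :
    Module.Finite ℤ (CuspForm.heckeAlgebra N k S) := by
  apply finite_of_subsingleton
  refine ⟨fun a b => ?_⟩
  have hz : ∀ f : CuspForm (Gamma0 N) k, f = 0 := by
    intro f
    rcases hk with hk | hk
    · rcases hk.lt_or_eq with hk | rfl
      · exact cuspForm_eq_zero_of_neg N hk f
      · exact cuspForm_eq_zero_of_zero N f
    · exact cuspForm_eq_zero_of_odd N hk f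
  rw [hz a, hz b]

/-- (R4) it suffices to treat even weights `k ≥ 2` and `S = ∅`. -/
theorem result_of_even
    (H : ∀ (N : ℕ) [NeZero N] (k : ℤ), 2 ≤ k → Even k →
      Module.Finite ℤ (CuspForm.heckeAlgebra N k (∅ : Set ℕ)))
    (N : ℕ) [NeZero N] (k : ℤ) (S : Set ℕ) :
    Module.Finite ℤ (CuspForm.heckeAlgebra N k S) := by
  by_cases hk : k ≤ 0 ∨ Odd k
  · exact finite_of_nonpos_or_odd N k S hk
  · push Not at hk
    obtain ⟨h1, h2⟩ := hk
    have heven : Even k := Int.not_odd_iff_even.mp h2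
    have h2le : 2 ≤ k := by
      obtain ⟨m, hm⟩ := heven
      omega
    exact finite_of_finite_empty N k S (H N k h2le heven)

end

end Fermat.Agent.S22
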