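import Mathlib

set_option autoImplicit false

namespace Fermat.Agent.S22

open scoped MatrixGroups

theorem sl2Z_fg : Group.FG SL(2, ℤ) := by
  rw [Group.fg_iff]
  refine ⟨{ModularGroup.S, ModularGroup.T}, SpecialLinearGroup.SL2Z_generators, ?_⟩
  exact Set.toFinite _

theorem gamma0_fg (N : ℕ) [NeZero N] : Group.FG (CongruenceSubgroup.Gamma0 N) := by
  have := sl2Z_fg
  infer_instance

/-- A family of elements `c g j` of an abelian group, indexed by a finitely generated group `G`
and a finite type, satisfying a cocycle-type relation with integer matrix coefficients, spans a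
finitely generated `ℤ`-module. -/
theorem cocycle_span_fg {G : Type*} [Group G] [Group.FG G] {A : Type*} [AddCommGroup A]
    {ι : Type*} [Fintype ι] (ρ : G → Matrix ι ι ℤ) (c : G → ι → A)
    (hc : ∀ g h j, c (g * h) j = ∑ i, ρ h j i • c g i + c h j) :
    (Submodule.span ℤ (Set.range fun p : G × ι => c p.1 p.2)).FG := by
  classical
  obtain ⟨S, hS⟩ := (Group.fg_iff (G := G)).mp inferInstance
  obtain ⟨hS, hSfin⟩ := hS
  set S' : Set G := insert (1 : G) S with hS'
  have hSfin' : S'.Finite := hSfin.insert 1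
  have hfin : (Set.range fun p : S' × ι => c p.1.1 p.2).Finite :=
    haveI := hSfin'.to_subtype
    Set.finite_range _
  set Λ₀ := Submodule.span ℤ (Set.range fun p : S' × ι => c p.1.1 p.2) with hΛ₀
  have hmem : ∀ g : G, ∀ j, c g j ∈ Λ₀ := by
    intro g
    have hg : g ∈ Subgroup.closure S := hS ▸ Subgroup.mem_top g
    induction hg using Subgroup.closure_induction with
    | mem x hx =>
      intro j
      exact Submodule.subset_span ⟨(⟨x, Set.mem_insert_of_mem _ hx⟩, j), rfl⟩
    | one =>
      intro j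
      exact Submodule.subset_span ⟨(⟨1, Set.mem_insert _ _⟩, j), rfl⟩
    | mul x y _ _ hx hy =>
      intro j
      rw [hc]
      refine Λ₀.add_mem (Λ₀.sum_mem fun i _ => Λ₀.smul_mem _ (hx i)) (hy j)
    | inv x _ hx =>
      intro j
      have h1 := hc x x⁻¹ j
      rw [mul_inv_cancel] at h1
      have h2 : c x⁻¹ j = c 1 j - ∑ i, ρ x⁻¹ j i • c x i := by
        rw [h1]; abel
      rw [h2]
      refine Λ₀.sub_mem ?_ (Λ₀.sum_mem fun i _ => Λ₀.smul_mem _ (hx i))
      exact Submodule.subset_span ⟨(⟨1, Set.mem_insert _ _⟩, j), rfl⟩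
  have heq : Submodule.span ℤ (Set.range fun p : G × ι => c p.1 p.2) = Λ₀ := by
    apply le_antisymm
    · rw [Submodule.span_le]
      rintro _ ⟨⟨g, j⟩, rfl⟩
      exact hmem g j
    · apply Submodule.span_mono
      rintro _ ⟨⟨g, j⟩, rfl⟩
      exact ⟨(g.1, j), rfl⟩
  rw [heq]
  exact Submodule.fg_span hfin

end Fermat.Agent.S22
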