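import Fermat.Agent.S22.FiniteOfLattice
import Fermat.Agent.S22.CocycleSpan

set_option autoImplicit false

namespace Fermat.Agent.S22

/-- Abstract core of the finiteness of Hecke algebras: a family of linear functionals `c g j`
on `V` (periods), indexed by a finitely generated group and a finite type, satisfying a cocycle
relation with integer matrix coefficients and separating the points of `V`; if precomposition
with every `t ∈ S` maps each period into the `ℤ`-span of the periods, then the `ℤ`-algebra
generated by `S` is a finitely generated `ℤ`-module. -/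
theorem finite_adjoin_of_period_cocycle {K : Type*} [CommRing K] {V : Type*} [AddCommGroup V]
    [Module K V] {G : Type*} [Group G] [Group.FG G] {ι : Type*} [Fintype ι]
    (ρ : G → Matrix ι ι ℤ) (c : G → ι → Module.Dual K V)
    (hc : ∀ g h j, c (g * h) j = ∑ i, ρ h j i • c g i + c h j)
    (hsep : ∀ v : V, (∀ g j, c g j v = 0) → v = 0)
    (S : Set (Module.End K V))
    (hS : ∀ t ∈ S, ∀ g j,
      (c g j) ∘ₗ t ∈ Submodule.span ℤ (Set.range fun p : G × ι => c p.1 p.2)) :
    Module.Finite ℤ (Algebra.adjoin ℤ S) := by
  set Λ := Submodule.span ℤ (Set.range fun p : G × ι => c p.1 p.2) with hΛ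
  refine finite_adjoin_of_stable_separating S Λ (cocycle_span_fg ρ c hc) ?_ ?_
  · intro t ht l hl
    induction hl using Submodule.span_induction with
    | mem x hx =>
      obtain ⟨⟨g, j⟩, rfl⟩ := hx
      exact hS t ht g j
    | zero => simp
    | add x y _ _ hx hy =>
      rw [LinearMap.add_comp]
      exact Λ.add_mem hx hy
    | smul n x _ hx =>
      rw [LinearMap.smul_comp]
      exact Λ.smul_mem n hx
  · intro v hv
    apply hsep
    intro g j
    exact hv _ (Submodule.subset_span ⟨(g, j), rfl⟩)

end Fermat.Agent.S22
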