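import Mathlib

set_option autoImplicit false

namespace Fermat.Agent.S22

open Polynomial

/-- The integer polynomial `(a X + b) ^ j * (c X + d) ^ (w - j)`. -/
noncomputable def polyActPoly (w : ℕ) (A : Matrix (Fin 2) (Fin 2) ℤ) (j : ℕ) : ℤ[X] :=
  (C (A 0 0) * X + C (A 0 1)) ^ j * (C (A 1 0) * X + C (A 1 1)) ^ (w - j)

theorem natDegree_polyActPoly_le (w : ℕ) (A : Matrix (Fin 2) (Fin 2) ℤ) {j : ℕ} (hj : j ≤ w) :
    (polyActPoly w A j).natDegree ≤ w := by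
  unfold polyActPoly
  have h1 : ∀ a b : ℤ, (C a * X + C b : ℤ[X]).natDegree ≤ 1 := by
    intro a b
    exact natDegree_linear_le
  calc ((C (A 0 0) * X + C (A 0 1)) ^ j * (C (A 1 0) * X + C (A 1 1)) ^ (w - j)).natDegree
      ≤ ((C (A 0 0) * X + C (A 0 1)) ^ j).natDegree
          + ((C (A 1 0) * X + C (A 1 1)) ^ (w - j)).natDegree := natDegree_mul_le
    _ ≤ j * 1 + (w - j) * 1 := by
        gcongr
        · exact natDegree_pow_le_of_le j (h1 _ _)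
        · exact natDegree_pow_le_of_le (w - j) (h1 _ _)
    _ = w := by omega

/-- The integer matrix of the weight `-w` action of a `2 × 2` integer matrix on coefficient
vectors of polynomials of degree `≤ w`. -/
noncomputable def polyActMat (w : ℕ) (A : Matrix (Fin 2) (Fin 2) ℤ) :
    Matrix (Fin (w + 1)) (Fin (w + 1)) ℤ :=
  fun i j => (polyActPoly w A j).coeff i

theorem eval_polyActPoly (w : ℕ) (A : Matrix (Fin 2) (Fin 2) ℤ) (j : ℕ) (τ : ℂ) :
    ((polyActPoly w A j).map (Int.castRingHom ℂ)).eval τ =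
      ((A 0 0 : ℂ) * τ + A 0 1) ^ j * ((A 1 0 : ℂ) * τ + A 1 1) ^ (w - j) := by
  simp [polyActPoly]

theorem eval_polyActPoly_eq_sum (w : ℕ) (A : Matrix (Fin 2) (Fin 2) ℤ) (j : Fin (w + 1)) (τ : ℂ) :
    ((A 0 0 : ℂ) * τ + A 0 1) ^ (j : ℕ) * ((A 1 0 : ℂ) * τ + A 1 1) ^ (w - j) =
      ∑ i : Fin (w + 1), (polyActMat w A i j : ℂ) * τ ^ (i : ℕ) := by
  rw [← eval_polyActPoly]
  have hdeg : ((polyActPoly w A j).map (Int.castRingHom ℂ)).natDegree < w + 1 :=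
    lt_of_le_of_lt natDegree_map_le
      (Nat.lt_succ_of_le (natDegree_polyActPoly_le w A (Nat.lt_succ_iff.mp j.2)))
  rw [eval_eq_sum_range' hdeg, Finset.sum_range]
  refine Finset.sum_congr rfl fun i _ => ?_
  simp [polyActMat]

/-- The weight `-w` action on polynomial functions of degree `≤ w`, in coordinates. -/
theorem polyAct_eval (w : ℕ) (A : Matrix (Fin 2) (Fin 2) ℤ) (v : Fin (w + 1) → ℂ) (τ : ℂ)
    (h : (A 1 0 : ℂ) * τ + A 1 1 ≠ 0) :
    ((A 1 0 : ℂ) * τ + A 1 1) ^ w *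
        ∑ j : Fin (w + 1), v j *
          ((((A 0 0 : ℂ) * τ + A 0 1) / ((A 1 0 : ℂ) * τ + A 1 1)) ^ (j : ℕ)) =
      ∑ i : Fin (w + 1), (∑ j : Fin (w + 1), (polyActMat w A i j : ℂ) * v j) * τ ^ (i : ℕ) := by
  have key : ∀ j : Fin (w + 1),
      ((A 1 0 : ℂ) * τ + A 1 1) ^ w *
        (v j * ((((A 0 0 : ℂ) * τ + A 0 1) / ((A 1 0 : ℂ) * τ + A 1 1)) ^ (j : ℕ))) =
      v j * ∑ i : Fin (w + 1), (polyActMat w A i j : ℂ) * τ ^ (i : ℕ) := by
    intro j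
    rw [← eval_polyActPoly_eq_sum]
    have hj : (j : ℕ) ≤ w := Nat.lt_succ_iff.mp j.2
    have : ((A 1 0 : ℂ) * τ + A 1 1) ^ w =
        ((A 1 0 : ℂ) * τ + A 1 1) ^ (j : ℕ) * ((A 1 0 : ℂ) * τ + A 1 1) ^ (w - j) := by
      rw [← pow_add]; congr 1; omega
    rw [this, div_pow]
    field_simp
  rw [Finset.mul_sum]
  simp_rw [key, Finset.mul_sum, Finset.sum_mul]
  rw [Finset.sum_comm]
  refine Finset.sum_congr rfl fun i _ => Finset.sum_congr rfl fun j _ => ?_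
  ring

end Fermat.Agent.S22
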