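import Mathlib
import Fermat.Agent.S22.PolyAction

set_option autoImplicit false

namespace Fermat.Agent.S22

open UpperHalfPlane ModularForm Polynomial
open scoped MatrixGroups

theorem infinite_coe_upperHalfPlane : (Set.range ((↑) : ℍ → ℂ)).Infinite := by
  have hinj : Function.Injective (fun n : ℕ => ((n : ℂ) + Complex.I)) := by
    intro a b h
    have := congrArg Complex.re h
    simpa using this
  refine (Set.infinite_range_of_injective hinj).mono ?_
  rintro _ ⟨n, rfl⟩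
  exact ⟨⟨(n : ℂ) + Complex.I, by simp⟩, rfl⟩

/-- Two polynomials agreeing on the upper half plane are equal. -/
theorem poly_eq_of_eval_eq_on_upperHalfPlane {p q : ℂ[X]}
    (h : ∀ z : ℍ, p.eval (z : ℂ) = q.eval (z : ℂ)) : p = q := by
  refine Polynomial.eq_of_infinite_eval_eq p q (infinite_coe_upperHalfPlane.mono ?_)
  rintro _ ⟨z, rfl⟩
  exact h z

/-- The polynomial with prescribed coefficient vector. -/
noncomputable def polyOfVec (w : ℕ) (v : Fin (w + 1) → ℂ) : ℂ[X] :=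
  ∑ i : Fin (w + 1), C (v i) * X ^ (i : ℕ)

theorem eval_polyOfVec (w : ℕ) (v : Fin (w + 1) → ℂ) (x : ℂ) :
    (polyOfVec w v).eval x = ∑ i : Fin (w + 1), v i * x ^ (i : ℕ) := by
  simp [polyOfVec, eval_finsetSum]

theorem coeff_polyOfVec (w : ℕ) (v : Fin (w + 1) → ℂ) (i : Fin (w + 1)) :
    (polyOfVec w v).coeff i = v i := by
  classical
  simp only [polyOfVec, finsetSum_coeff, coeff_C_mul, coeff_X_pow]
  rw [Finset.sum_eq_single i]
  · simp
  · intro j _ hj
    have : (i : ℕ) ≠ (j : ℕ) := fun h => hj (Fin.ext h.symm)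
    simp [this]
  · intro h; exact absurd (Finset.mem_univ i) h

theorem eval_eq_sum_of_mem_degreeLT {w : ℕ} {p : ℂ[X]} (hp : p ∈ degreeLT ℂ (w + 1)) (x : ℂ) :
    p.eval x = ∑ i : Fin (w + 1), p.coeff i * x ^ (i : ℕ) := by
  rcases eq_or_ne p 0 with rfl | hp0
  · simp
  have hdeg : p.natDegree < w + 1 := by
    rw [mem_degreeLT] at hp
    exact (natDegree_lt_iff_degree_lt hp0).mpr hp
  rw [eval_eq_sum_range' hdeg, Finset.sum_range]

section

variable {V : Type*} [AddCommGroup V] [Module ℂ V] (w : ℕ) (Γ : Subgroup SL(2, ℤ))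
  (E : V →ₗ[ℂ] (ℍ → ℂ))

/-- Hypothesis: for every `f` and `γ ∈ Γ`, `E f ∣[-w] γ - E f` is a polynomial of degree `≤ w`. -/
def HasPeriodPolys : Prop :=
  ∀ f : V, ∀ γ ∈ Γ, ∃ p ∈ degreeLT ℂ (w + 1),
    ∀ z : ℍ, ((E f) ∣[-(w : ℤ)] γ - E f) z = p.eval (z : ℂ)

variable {w Γ E}

/-- The period polynomial. -/
noncomputable def periodPoly (h : HasPeriodPolys w Γ E) (f : V) (γ : Γ) : ℂ[X] :=
  (h f γ.1 γ.2).choose

theorem periodPoly_mem (h : HasPeriodPolys w Γ E) (f : V) (γ : Γ) :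
    periodPoly h f γ ∈ degreeLT ℂ (w + 1) :=
  (h f γ.1 γ.2).choose_spec.1

theorem periodPoly_spec (h : HasPeriodPolys w Γ E) (f : V) (γ : Γ) (z : ℍ) :
    ((E f) ∣[-(w : ℤ)] (γ : SL(2, ℤ)) - E f) z = (periodPoly h f γ).eval (z : ℂ) :=
  (h f γ.1 γ.2).choose_spec.2 z

theorem periodPoly_unique (h : HasPeriodPolys w Γ E) (f : V) (γ : Γ) (p : ℂ[X])
    (hp : ∀ z : ℍ, ((E f) ∣[-(w : ℤ)] (γ : SL(2, ℤ)) - E f) z = p.eval (z : ℂ)) :
    periodPoly h f γ = p :=
  poly_eq_of_eval_eq_on_upperHalfPlane fun z => (periodPoly_spec h f γ z).symm.trans (hp z)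

theorem periodPoly_add (h : HasPeriodPolys w Γ E) (f g : V) (γ : Γ) :
    periodPoly h (f + g) γ = periodPoly h f γ + periodPoly h g γ := by
  apply periodPoly_unique
  intro z
  rw [eval_add, ← periodPoly_spec h f γ z, ← periodPoly_spec h g γ z, map_add,
    SlashAction.add_slash]
  simp only [Pi.sub_apply, Pi.add_apply]
  ring

theorem periodPoly_smul (h : HasPeriodPolys w Γ E) (a : ℂ) (f : V) (γ : Γ) :
    periodPoly h (a • f) γ = a • periodPoly h f γ := by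
  apply periodPoly_unique
  intro z
  rw [eval_smul, ← periodPoly_spec h f γ z, map_smul, ModularForm.SL_smul_slash]
  simp only [Pi.sub_apply, Pi.smul_apply, smul_eq_mul]
  ring

/-- The period coefficient functionals. -/
noncomputable def periodCoeff (h : HasPeriodPolys w Γ E) (γ : Γ) (j : Fin (w + 1)) :
    Module.Dual ℂ V where
  toFun f := (periodPoly h f γ).coeff j
  map_add' f g := by rw [periodPoly_add, coeff_add]
  map_smul' a f := by rw [periodPoly_smul, coeff_smul]; rfl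

@[simp] theorem periodCoeff_apply (h : HasPeriodPolys w Γ E) (γ : Γ) (j : Fin (w + 1)) (f : V) :
    periodCoeff h γ j f = (periodPoly h f γ).coeff j := rfl

/-- The integer matrix of `γ` acting on coefficient vectors. -/
noncomputable def periodMat (w : ℕ) (γ : SL(2, ℤ)) : Matrix (Fin (w + 1)) (Fin (w + 1)) ℤ :=
  polyActMat w (γ : Matrix (Fin 2) (Fin 2) ℤ)

theorem eval_slash_of_poly (p : ℂ[X]) (hp : p ∈ degreeLT ℂ (w + 1)) (F : ℍ → ℂ)
    (hF : ∀ z : ℍ, F z = p.eval (z : ℂ)) (γ : SL(2, ℤ)) (z : ℍ) :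
    (F ∣[-(w : ℤ)] γ) z =
      ∑ i : Fin (w + 1), (∑ j : Fin (w + 1), (periodMat w γ i j : ℂ) * p.coeff j) *
        (z : ℂ) ^ (i : ℕ) := by
  rw [ModularForm.SL_slash_apply, hF, eval_eq_sum_of_mem_degreeLT hp, neg_neg, zpow_natCast,
    mul_comm]
  have hden : denom γ z = ((γ 1 0 : ℤ) : ℂ) * z + ((γ 1 1 : ℤ) : ℂ) := by
    simp [ModularGroup.denom_apply]
  have hne : (((γ : Matrix (Fin 2) (Fin 2) ℤ) 1 0 : ℤ) : ℂ) * (z : ℂ)
      + (((γ : Matrix (Fin 2) (Fin 2) ℤ) 1 1 : ℤ) : ℂ) ≠ 0 := by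
    have := denom_ne_zero γ z
    rwa [hden] at this
  have hcoe : ((γ • z : ℍ) : ℂ) =
      ((((γ : Matrix (Fin 2) (Fin 2) ℤ) 0 0 : ℤ) : ℂ) * z
        + (((γ : Matrix (Fin 2) (Fin 2) ℤ) 0 1 : ℤ) : ℂ)) /
      ((((γ : Matrix (Fin 2) (Fin 2) ℤ) 1 0 : ℤ) : ℂ) * z
        + (((γ : Matrix (Fin 2) (Fin 2) ℤ) 1 1 : ℤ) : ℂ)) := by
    rw [coe_specialLinearGroup_apply]
    simp
  rw [hden, hcoe]
  exact polyAct_eval w (γ : Matrix (Fin 2) (Fin 2) ℤ) (fun j => p.coeff j) (z : ℂ) hne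

/-- The cocycle relation for period coefficients. -/
theorem periodCoeff_mul (h : HasPeriodPolys w Γ E) (γ γ' : Γ) (j : Fin (w + 1)) :
    periodCoeff h (γ * γ') j =
      ∑ i : Fin (w + 1), periodMat w (γ' : SL(2, ℤ)) j i • periodCoeff h γ i
        + periodCoeff h γ' j := by
  ext f
  simp only [periodCoeff_apply, LinearMap.add_apply, LinearMap.sum_apply, LinearMap.smul_apply,
    zsmul_eq_mul]
  set v : Fin (w + 1) → ℂ := fun j =>
    ∑ i : Fin (w + 1), (periodMat w (γ' : SL(2, ℤ)) j i : ℂ) * (periodPoly h f γ).coeff i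
      + (periodPoly h f γ').coeff j with hv
  have key : periodPoly h f (γ * γ') = polyOfVec w v := by
    apply periodPoly_unique
    intro z
    have h1 : ((E f) ∣[-(w : ℤ)] ((γ * γ' : Γ) : SL(2, ℤ)) - E f) z =
        (((E f) ∣[-(w : ℤ)] (γ : SL(2, ℤ)) - E f) ∣[-(w : ℤ)] (γ' : SL(2, ℤ))) z
          + ((E f) ∣[-(w : ℤ)] (γ' : SL(2, ℤ)) - E f) z := by
      rw [Subgroup.coe_mul, SlashAction.slash_mul, sub_eq_add_neg ((E f) ∣[-(w : ℤ)] (γ : SL(2, ℤ))),
        SlashAction.add_slash, SlashAction.neg_slash]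
      simp only [Pi.sub_apply, Pi.add_apply, Pi.neg_apply]
      ring
    rw [h1, eval_slash_of_poly (periodPoly h f γ) (periodPoly_mem h f γ) _
      (fun z => periodPoly_spec h f γ z) (γ' : SL(2, ℤ)) z, periodPoly_spec h f γ' z,
      eval_eq_sum_of_mem_degreeLT (periodPoly_mem h f γ'), eval_polyOfVec, ← Finset.sum_add_distrib]
    refine Finset.sum_congr rfl fun i _ => ?_
    rw [hv]
    ring
  rw [key, coeff_polyOfVec]

/-- Vanishing of all period coefficients means invariance of the Eichler integral. -/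
theorem slash_eq_of_periodCoeff_eq_zero (h : HasPeriodPolys w Γ E) (f : V)
    (h0 : ∀ (γ : Γ) (j : Fin (w + 1)), periodCoeff h γ j f = 0) (γ : SL(2, ℤ)) (hγ : γ ∈ Γ) :
    (E f) ∣[-(w : ℤ)] γ = E f := by
  ext z
  have h1 := periodPoly_spec h f ⟨γ, hγ⟩ z
  rw [eval_eq_sum_of_mem_degreeLT (periodPoly_mem h f ⟨γ, hγ⟩)] at h1
  have h2 : ∀ i : Fin (w + 1), (periodPoly h f ⟨γ, hγ⟩).coeff i = 0 := fun i => h0 ⟨γ, hγ⟩ i
  simp only [h2, zero_mul, Finset.sum_const_zero, Pi.sub_apply] at h1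
  exact sub_eq_zero.mp h1

end

end Fermat.Agent.S22
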