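import Mathlib
import Fermat.Agent.S22.PeriodCocycle

set_option autoImplicit false

namespace Fermat.Agent.S22

open UpperHalfPlane ModularForm Polynomial
open scoped MatrixGroups

/-- The unnormalised weight `-w` action of an integral matrix with positive determinant on a
polynomial function of degree `≤ w`, in coordinates. -/
theorem denom_pow_mul_eval_smul {w : ℕ} (p : ℂ[X]) (hp : p ∈ degreeLT ℂ (w + 1))
    (g : GL (Fin 2) ℝ) (A : Matrix (Fin 2) (Fin 2) ℤ)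
    (hgA : ∀ i j, (g : Matrix (Fin 2) (Fin 2) ℝ) i j = ((A i j : ℤ) : ℝ))
    (hdet : 0 < g.det.val) (z : ℍ) :
    denom g z ^ w * p.eval ((g • z : ℍ) : ℂ) =
      ∑ i : Fin (w + 1), (∑ j : Fin (w + 1), (polyActMat w A i j : ℂ) * p.coeff j) *
        (z : ℂ) ^ (i : ℕ) := by
  have hden : denom g z = ((A 1 0 : ℤ) : ℂ) * z + ((A 1 1 : ℤ) : ℂ) := by
    simp [denom, hgA]
  have hnum : num g z = ((A 0 0 : ℤ) : ℂ) * z + ((A 0 1 : ℤ) : ℂ) := by
    simp [num, hgA]
  have hne : ((A 1 0 : ℤ) : ℂ) * (z : ℂ) + ((A 1 1 : ℤ) : ℂ) ≠ 0 := by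
    have := denom_ne_zero g z
    rwa [hden] at this
  rw [coe_smul_of_det_pos hdet, hden, hnum, eval_eq_sum_of_mem_degreeLT hp]
  exact polyAct_eval w A (fun j => p.coeff j) (z : ℂ) hne

section

variable {V : Type*} [AddCommGroup V] [Module ℂ V] {w : ℕ} {Γ : Subgroup SL(2, ℤ)}
  {E : V →ₗ[ℂ] (ℍ → ℂ)}

/-- Abstract Hecke relation for period coefficients. -/
theorem periodCoeff_comp_hecke (h : HasPeriodPolys w Γ E) {X : Type*} [Fintype X]
    (g : X → GL (Fin 2) ℝ) (A : X → Matrix (Fin 2) (Fin 2) ℤ)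
    (hgA : ∀ x i j, (g x : Matrix (Fin 2) (Fin 2) ℝ) i j = ((A x i j : ℤ) : ℝ))
    (hdet : ∀ x, 0 < (g x).det.val)
    (t : V →ₗ[ℂ] V)
    (hEt : ∀ f z, E (t f) z = ∑ x, denom (g x) z ^ w * E f (g x • z))
    (γ : Γ) (σ : Equiv.Perm X) (γ' : X → Γ)
    (hcoset : ∀ x, g x * Matrix.SpecialLinearGroup.mapGL ℝ (γ : SL(2, ℤ)) =
      Matrix.SpecialLinearGroup.mapGL ℝ (γ' x : SL(2, ℤ)) * g (σ x))
    (j : Fin (w + 1)) :
    periodCoeff h γ j ∘ₗ t =
      ∑ x, ∑ i : Fin (w + 1), polyActMat w (A (σ x)) j i • periodCoeff h (γ' x) i := by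
  ext f
  simp only [LinearMap.comp_apply, periodCoeff_apply, LinearMap.sum_apply, LinearMap.smul_apply,
    zsmul_eq_mul]
  set v : Fin (w + 1) → ℂ := fun j =>
    ∑ x, ∑ i : Fin (w + 1), (polyActMat w (A (σ x)) j i : ℂ) * (periodPoly h f (γ' x)).coeff i
    with hv
  have key : periodPoly h (t f) γ = polyOfVec w v := by
    apply periodPoly_unique
    intro z
    rw [Pi.sub_apply, ModularForm.SL_slash_apply, neg_neg, zpow_natCast, hEt, hEt, Finset.sum_mul]
    have hterm : ∀ x, denom (g x) (((γ : SL(2, ℤ)) • z : ℍ) : ℂ) ^ w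
        * E f (g x • ((γ : SL(2, ℤ)) • z)) * denom (γ : SL(2, ℤ)) (z : ℂ) ^ w =
        denom (g (σ x)) (z : ℂ) ^ w * E f (g (σ x) • z) +
          denom (g (σ x)) (z : ℂ) ^ w *
            (periodPoly h f (γ' x)).eval ((g (σ x) • z : ℍ) : ℂ) := by
      intro x
      have hsm : g x • ((γ : SL(2, ℤ)) • z) = (γ' x : SL(2, ℤ)) • (g (σ x) • z) := by
        rw [ModularGroup.sl_moeb, ← mul_smul, show ((γ : SL(2, ℤ)) : GL (Fin 2) ℝ) =
          Matrix.SpecialLinearGroup.mapGL ℝ (γ : SL(2, ℤ)) from rfl, hcoset x, mul_smul]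
        rfl
      have hσ1 : ∀ (δ : SL(2, ℤ)) (u : ℂ),
          UpperHalfPlane.σ (Matrix.SpecialLinearGroup.mapGL ℝ δ) u = u := by
        intro δ u
        simp [UpperHalfPlane.σ]
      have hσ2 : ∀ (y : X) (u : ℂ), UpperHalfPlane.σ (g y) u = u := by
        intro y u
        have := hdet y
        rw [Matrix.GeneralLinearGroup.val_det_apply] at this
        simp [UpperHalfPlane.σ, this]
      have hden : denom (g x) (((γ : SL(2, ℤ)) • z : ℍ) : ℂ) * denom (γ : SL(2, ℤ)) (z : ℂ) =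
          denom (γ' x : SL(2, ℤ)) ((g (σ x) • z : ℍ) : ℂ) * denom (g (σ x)) (z : ℂ) := by
        have h1 := denom_cocycle_σ (g x) (Matrix.SpecialLinearGroup.mapGL ℝ (γ : SL(2, ℤ))) z
        have h2 := denom_cocycle_σ (Matrix.SpecialLinearGroup.mapGL ℝ (γ' x : SL(2, ℤ)))
          (g (σ x)) z
        rw [hσ1] at h1
        rw [hσ2] at h2
        rw [hcoset x] at h1
        rw [h1] at h2
        exact h2
      have hspec := periodPoly_spec h f (γ' x) (g (σ x) • z)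
      rw [Pi.sub_apply, ModularForm.SL_slash_apply, neg_neg, zpow_natCast] at hspec
      rw [hsm]
      calc denom (g x) (((γ : SL(2, ℤ)) • z : ℍ) : ℂ) ^ w
              * E f ((γ' x : SL(2, ℤ)) • (g (σ x) • z)) * denom (γ : SL(2, ℤ)) (z : ℂ) ^ w
          = (denom (g x) (((γ : SL(2, ℤ)) • z : ℍ) : ℂ) * denom (γ : SL(2, ℤ)) (z : ℂ)) ^ w
              * E f ((γ' x : SL(2, ℤ)) • (g (σ x) • z)) := by rw [mul_pow]; ring
        _ = denom (g (σ x)) (z : ℂ) ^ w * (E f ((γ' x : SL(2, ℤ)) • (g (σ x) • z))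
              * denom (γ' x : SL(2, ℤ)) ((g (σ x) • z : ℍ) : ℂ) ^ w) := by
            rw [hden, mul_pow]; ring
        _ = denom (g (σ x)) (z : ℂ) ^ w * (E f (g (σ x) • z)
              + (periodPoly h f (γ' x)).eval ((g (σ x) • z : ℍ) : ℂ)) := by
            rw [← hspec]; ring
        _ = _ := by ring
    rw [Finset.sum_congr rfl fun x _ => hterm x, Finset.sum_add_distrib,
      Equiv.sum_comp σ (fun y => denom (g y) z ^ w * E f (g y • z)), add_sub_cancel_left,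
      eval_polyOfVec]
    have hterm2 : ∀ x, denom (g (σ x)) z ^ w *
        (periodPoly h f (γ' x)).eval ((g (σ x) • z : ℍ) : ℂ) =
        ∑ i : Fin (w + 1), (∑ j : Fin (w + 1), (polyActMat w (A (σ x)) i j : ℂ) *
          (periodPoly h f (γ' x)).coeff j) * (z : ℂ) ^ (i : ℕ) := fun x =>
      denom_pow_mul_eval_smul _ (periodPoly_mem h f (γ' x)) (g (σ x)) (A (σ x)) (hgA (σ x))
        (hdet (σ x)) z
    rw [Finset.sum_congr rfl fun x _ => hterm2 x, Finset.sum_comm]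
    refine Finset.sum_congr rfl fun i _ => ?_
    rw [hv, Finset.sum_mul]
  rw [key, coeff_polyOfVec]

/-- Consequence: stability of the span of the period coefficients. -/
theorem periodCoeff_comp_hecke_mem_span (h : HasPeriodPolys w Γ E) {X : Type*} [Fintype X]
    (g : X → GL (Fin 2) ℝ) (A : X → Matrix (Fin 2) (Fin 2) ℤ)
    (hgA : ∀ x i j, (g x : Matrix (Fin 2) (Fin 2) ℝ) i j = ((A x i j : ℤ) : ℝ))
    (hdet : ∀ x, 0 < (g x).det.val)
    (t : V →ₗ[ℂ] V)
    (hEt : ∀ f z, E (t f) z = ∑ x, denom (g x) z ^ w * E f (g x • z))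
    (hcoset : ∀ γ : Γ, ∃ (σ : Equiv.Perm X) (γ' : X → Γ), ∀ x,
      g x * Matrix.SpecialLinearGroup.mapGL ℝ (γ : SL(2, ℤ)) =
        Matrix.SpecialLinearGroup.mapGL ℝ (γ' x : SL(2, ℤ)) * g (σ x))
    (γ : Γ) (j : Fin (w + 1)) :
    periodCoeff h γ j ∘ₗ t ∈
      Submodule.span ℤ (Set.range fun p : Γ × Fin (w + 1) => periodCoeff h p.1 p.2) := by
  obtain ⟨σ, γ', hc⟩ := hcoset γ
  rw [periodCoeff_comp_hecke h g A hgA hdet t hEt γ σ γ' hc j]
  refine Submodule.sum_mem _ fun x _ => Submodule.sum_mem _ fun i _ =>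
    Submodule.smul_mem _ _ (Submodule.subset_span ⟨(γ' x, i), rfl⟩)

end

end Fermat.Agent.S22
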