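import Mathlib
import Fermat.Prelude.Def_CuspForm_HeckeAlgebra
import Fermat.Prelude.Thm_ModularForm_heckeT_slash_eq_self_of_mem_Gamma0
import Fermat.Agent.S22.AbstractFinite
import Fermat.Agent.S22.HeckeRelation
import Fermat.Agent.S22.ES.HeckeEichler

/-!
# S22: final glue

Instantiates the abstract finiteness criterion `finite_adjoin_of_period_cocycle` with the period
functionals of the Eichler integral on `S_{m+2}(Γ₀(N))`:

* `hasPeriodPolys_eichlerLin`: the Eichler integral has period polynomials on `Γ₀(N)`;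
* `eq_zero_of_periodCoeff_eq_zero`: the period functionals separate points (Eichler–Shimura
  injectivity);
* `periodCoeff_comp_heckeTLin_mem_span`, `periodCoeff_comp_heckeULin_mem_span`: the Hecke
  operators preserve the `ℤ`-span of the period functionals;
* `finite_heckeAlgebra_add_two`: the Hecke algebra of weight `m + 2` is a finite `ℤ`-module.
-/

set_option autoImplicit false

namespace Fermat.Agent.S22.Glue

open UpperHalfPlane ModularForm Polynomial CongruenceSubgroup Matrix.SpecialLinearGroup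
open scoped MatrixGroups
open P2MW.S_ModularForm_heckeT_slash_eq_self_of_mem_Gamma0.ModularForm.HeckeSlashInvariance

theorem toPoly_mem_degreeLT {n : ℕ} (v : Fin n → ℂ) : ES.toPoly v ∈ degreeLT ℂ n := by
  unfold ES.toPoly
  refine Submodule.sum_mem _ fun j _ => ?_
  rw [Polynomial.mem_degreeLT]
  refine lt_of_le_of_lt (Polynomial.degree_monomial_le _ _) ?_
  exact_mod_cast j.2

/-- Normalised weight `-m` slash by a matrix of positive determinant `d`. -/
theorem smul_slash_apply_of_det (m : ℕ) (u : ℍ → ℂ) (g : GL (Fin 2) ℝ) (d : ℝ) (hd : 0 < d)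
    (hdet : (g.det : ℝ) = d) (z : ℍ) :
    ((d : ℂ) ^ (m + 1) * (u ∣[-(m : ℤ)] g) z) = denom g z ^ m * u (g • z) := by
  have hpos : 0 < g.det.val := by rw [hdet]; exact hd
  have hσ : UpperHalfPlane.σ g = .refl ℝ ℂ := by
    rw [UpperHalfPlane.σ, if_pos hpos]
  have hd' : (d : ℂ) ≠ 0 := by exact_mod_cast hd.ne'
  rw [ModularForm.slash_apply, hσ, hdet, abs_of_pos hd, neg_neg, zpow_natCast]
  simp only [ContinuousAlgEquiv.refl_apply]
  have : ((d : ℂ)) ^ (-(m : ℤ) - 1) = ((d : ℂ) ^ (m + 1))⁻¹ := by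
    rw [← zpow_natCast, ← zpow_neg]
    congr 1
    push_cast
    ring
  rw [this]
  field_simp

/-! ### Integer matrices of the Hecke representatives -/

/-- Integer matrices of the Hecke representatives for `T_p`. -/
def heckeRepInt (p : ℕ) (x : OnePoint (ZMod p)) : Matrix (Fin 2) (Fin 2) ℤ :=
  x.elim !![(p : ℤ), 0; 0, 1] (fun j => !![1, (j.val : ℤ); 0, (p : ℤ)])

theorem heckeRep_coe_eq_int {p : ℕ} (hp : p ≠ 0) (x : OnePoint (ZMod p)) (i j : Fin 2) :
    (heckeRep p x : Matrix (Fin 2) (Fin 2) ℝ) i j = ((heckeRepInt p x i j : ℤ) : ℝ) := by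
  induction x using OnePoint.rec with
  | infty =>
    change (heckeDiagMatrix p : Matrix (Fin 2) (Fin 2) ℝ) i j = ((!![(p : ℤ), 0; 0, 1] i j : ℤ) : ℝ)
    rw [val_heckeDiagMatrix hp]
    fin_cases i <;> fin_cases j <;> simp
  | coe y =>
    change (heckeMatrix p y.val : Matrix (Fin 2) (Fin 2) ℝ) i j =
      ((!![1, (y.val : ℤ); 0, (p : ℤ)] i j : ℤ) : ℝ)
    rw [val_heckeMatrix hp]
    fin_cases i <;> fin_cases j <;> simp

theorem det_heckeRep {p : ℕ} (hp : p ≠ 0) (x : OnePoint (ZMod p)) :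
    ((heckeRep p x).det : ℝ) = p := by
  induction x using OnePoint.rec with
  | infty => exact det_heckeDiagMatrix hp
  | coe y => exact det_heckeMatrix hp y.val

theorem heckeMatrix_coe_eq_int {p : ℕ} (hp : p ≠ 0) (j : ℕ) (i i' : Fin 2) :
    (heckeMatrix p j : Matrix (Fin 2) (Fin 2) ℝ) i i' =
      ((!![1, (j : ℤ); 0, (p : ℤ)] i i' : ℤ) : ℝ) := by
  rw [val_heckeMatrix hp]
  fin_cases i <;> fin_cases i' <;> simp

/-! ### Coset permutations -/

theorem heckeRep_coset (N : ℕ) {p : ℕ} [Fact p.Prime] (hpN : ¬ p ∣ N) (γ : Gamma0 N) :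
    ∃ (σ : Equiv.Perm (OnePoint (ZMod p))) (γ' : OnePoint (ZMod p) → Gamma0 N), ∀ x,
      heckeRep p x * mapGL ℝ (γ : SL(2, ℤ)) = mapGL ℝ (γ' x : SL(2, ℤ)) * heckeRep p (σ x) := by
  have hcN : (N : ℤ) ∣ (γ : SL(2, ℤ)) 1 0 :=
    (ZMod.intCast_zmod_eq_zero_iff_dvd _ _).mp (Gamma0_mem.mp γ.2)
  have H := fun x => heckeRep_mul hpN (γ : SL(2, ℤ)) hcN x
  choose g' hg' hmul using H
  refine ⟨MulAction.toPerm (redMatrix p (γ : SL(2, ℤ))), fun x => ⟨g' x, ?_⟩, fun x => ?_⟩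
  · exact Gamma0_mem.mpr ((ZMod.intCast_zmod_eq_zero_iff_dvd _ _).mpr (hg' x))
  · exact hmul x

theorem heckeMatrix_coset (N : ℕ) {q : ℕ} [NeZero q] (hqN : q ∣ N) (γ : Gamma0 N) :
    ∃ (σ : Equiv.Perm (ZMod q)) (γ' : ZMod q → Gamma0 N), ∀ x,
      heckeMatrix q x.val * mapGL ℝ (γ : SL(2, ℤ)) =
        mapGL ℝ (γ' x : SL(2, ℤ)) * heckeMatrix q (σ x).val := by
  have hcN : (N : ℤ) ∣ (γ : SL(2, ℤ)) 1 0 :=
    (ZMod.intCast_zmod_eq_zero_iff_dvd _ _).mp (Gamma0_mem.mp γ.2)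
  have hc : (q : ℤ) ∣ (γ : SL(2, ℤ)) 1 0 := (Int.natCast_dvd_natCast.mpr hqN).trans hcN
  have H := fun x => heckeMatrix_mul_of_dvd (γ : SL(2, ℤ)) hc x
  choose g' hg' hmul using H
  refine ⟨affinePerm (γ : SL(2, ℤ)) ((ZMod.intCast_zmod_eq_zero_iff_dvd _ _).mpr hc),
    fun x => ⟨g' x, ?_⟩, fun x => ?_⟩
  · rw [Gamma0_mem, hg' x]
    push_cast
    rw [Gamma0_mem.mp γ.2, mul_zero]
  · exact hmul x

/-! ### The period functionals of the Eichler integral -/

variable (N : ℕ) [NeZero N] (m : ℕ)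

theorem hasPeriodPolys_eichlerLin :
    HasPeriodPolys m (Gamma0 N) (ES.eichlerLin N ((m : ℤ) + 2) (m + 1)) := by
  intro f γ hγ
  obtain ⟨v, hv⟩ := ES.exists_polyFunN_period N m f γ hγ
  refine ⟨ES.toPoly v, toPoly_mem_degreeLT v, fun z => ?_⟩
  rw [hv, ES.polyFunN_eq_eval]

/-- Eichler–Shimura injectivity: the period functionals separate points. -/
theorem eq_zero_of_periodCoeff_eq_zero (f : CuspForm (Gamma0 N) ((m : ℤ) + 2))
    (h0 : ∀ (γ : Gamma0 N) (j : Fin (m + 1)),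
      periodCoeff (hasPeriodPolys_eichlerLin N m) γ j f = 0) : f = 0 := by
  refine ES.eq_zero_of_invariant_eichlerInt m f (ES.eichlerLin_spec N (m + 1) f) ?_
  rintro _ ⟨γ, hγ, rfl⟩
  exact slash_eq_of_periodCoeff_eq_zero (hasPeriodPolys_eichlerLin N m) f h0 γ hγ

/-- General Hecke stability: an operator `t` whose effect on Eichler integrals is
`p^(m+1) • Σ_x (· ∣[-m] g x)` for integral matrices `g x` of determinant `p`, permuted by
`Γ₀(N)` up to left multiplication, preserves the span of the period functionals. -/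
theorem periodCoeff_comp_mem_span_of_rep {X : Type*} [Fintype X]
    (g : X → GL (Fin 2) ℝ) (A : X → Matrix (Fin 2) (Fin 2) ℤ)
    (hgA : ∀ x i j, (g x : Matrix (Fin 2) (Fin 2) ℝ) i j = ((A x i j : ℤ) : ℝ))
    (p : ℕ) (hp : p ≠ 0) (hdet : ∀ x, ((g x).det : ℝ) = p)
    (t : Module.End ℂ (CuspForm (Gamma0 N) ((m : ℤ) + 2)))
    (ht : ∀ f, ES.eichlerLin N ((m : ℤ) + 2) (m + 1) (t f) =
      (p : ℂ) ^ (m + 1) • ∑ x, (ES.eichlerLin N ((m : ℤ) + 2) (m + 1) f) ∣[-(m : ℤ)] g x)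
    (hcoset : ∀ γ : Gamma0 N, ∃ (σ : Equiv.Perm X) (γ' : X → Gamma0 N), ∀ x,
      g x * mapGL ℝ (γ : SL(2, ℤ)) = mapGL ℝ (γ' x : SL(2, ℤ)) * g (σ x))
    (γ : Gamma0 N) (j : Fin (m + 1)) :
    periodCoeff (hasPeriodPolys_eichlerLin N m) γ j ∘ₗ t ∈
      Submodule.span ℤ (Set.range fun q : Gamma0 N × Fin (m + 1) =>
        periodCoeff (hasPeriodPolys_eichlerLin N m) q.1 q.2) := by
  have hp' : (0 : ℝ) < p := by exact_mod_cast Nat.pos_of_ne_zero hp
  refine periodCoeff_comp_hecke_mem_span (hasPeriodPolys_eichlerLin N m) g A hgA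
    (fun x => by rw [hdet x]; exact hp') t ?_ hcoset γ j
  intro f z
  rw [ht f]
  simp only [Pi.smul_apply, Finset.sum_apply, smul_eq_mul, Finset.mul_sum]
  refine Finset.sum_congr rfl fun x _ => ?_
  have := smul_slash_apply_of_det m (ES.eichlerLin N ((m : ℤ) + 2) (m + 1) f) (g x) (p : ℝ) hp'
    (hdet x) z
  rw [← this]
  push_cast
  rfl

theorem periodCoeff_comp_heckeTLin_mem_span {p : ℕ} (hp : p.Prime) (hpN : ¬ p ∣ N)
    (γ : Gamma0 N) (j : Fin (m + 1)) :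
    periodCoeff (hasPeriodPolys_eichlerLin N m) γ j ∘ₗ CuspForm.heckeTLin ((m : ℤ) + 2) hp hpN ∈
      Submodule.span ℤ (Set.range fun q : Gamma0 N × Fin (m + 1) =>
        periodCoeff (hasPeriodPolys_eichlerLin N m) q.1 q.2) := by
  have : Fact p.Prime := ⟨hp⟩
  have : NeZero p := ⟨hp.ne_zero⟩
  refine periodCoeff_comp_mem_span_of_rep N m (heckeRep p) (heckeRepInt p)
    (heckeRep_coe_eq_int hp.ne_zero) p hp.ne_zero (det_heckeRep hp.ne_zero) _ ?_
    (heckeRep_coset N hpN) γ j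
  intro f
  rw [ES.eichlerLin_heckeTLin N m hp hpN f, heckeT_eq_sum_onePoint]

theorem periodCoeff_comp_heckeULin_mem_span {q : ℕ} (hq : q.Prime) (hqN : q ∣ N)
    (γ : Gamma0 N) (j : Fin (m + 1)) :
    periodCoeff (hasPeriodPolys_eichlerLin N m) γ j ∘ₗ CuspForm.heckeULin ((m : ℤ) + 2) hqN ∈
      Submodule.span ℤ (Set.range fun q : Gamma0 N × Fin (m + 1) =>
        periodCoeff (hasPeriodPolys_eichlerLin N m) q.1 q.2) := by
  have : NeZero q := ⟨hq.ne_zero⟩
  refine periodCoeff_comp_mem_span_of_rep N m (fun x : ZMod q => heckeMatrix q x.val)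
    (fun x => !![1, (x.val : ℤ); 0, (q : ℤ)])
    (fun x => heckeMatrix_coe_eq_int hq.ne_zero x.val) q hq.ne_zero
    (fun x => det_heckeMatrix hq.ne_zero x.val) _ ?_
    (heckeMatrix_coset N hqN) γ j
  intro f
  rw [ES.eichlerLin_heckeULin N m hq.ne_zero hqN f, heckeU_eq_sum_zmod]

/-- The Hecke algebra of weight `m + 2` and level `Γ₀(N)` is a finite `ℤ`-module. -/
theorem finite_heckeAlgebra_add_two (S : Set ℕ) :
    Module.Finite ℤ (CuspForm.heckeAlgebra N ((m : ℤ) + 2) S) := by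
  have : Group.FG (Gamma0 N) := gamma0_fg N
  refine finite_adjoin_of_period_cocycle (G := Gamma0 N) (ι := Fin (m + 1))
    (fun γ => periodMat m (γ : SL(2, ℤ)))
    (fun γ j => periodCoeff (hasPeriodPolys_eichlerLin N m) γ j)
    (fun γ γ' j => periodCoeff_mul (hasPeriodPolys_eichlerLin N m) γ γ' j)
    (fun f h0 => eq_zero_of_periodCoeff_eq_zero N m f h0)
    (CuspForm.heckeGenerators N ((m : ℤ) + 2) S) ?_
  rintro t (⟨ℓ, hℓ, hℓN, -, rfl⟩ | ⟨q, hqN, hq, -, rfl⟩) γ j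
  · exact periodCoeff_comp_heckeTLin_mem_span N m hℓ hℓN γ j
  · exact periodCoeff_comp_heckeULin_mem_span N m hq hqN γ j

end Fermat.Agent.S22.Glue
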