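import Mathlib

set_option autoImplicit false

namespace Fermat.Agent.S22

variable {G : Type*} [Group G] {n : ℕ} (ρ : G → Matrix (Fin n) (Fin n) ℤ)

/-- Complex-valued 1-cocycles for the right action given by the integer matrices `ρ`. -/
def cocycleSubmodule : Submodule ℂ (G → Fin n → ℂ) where
  carrier := {v | ∀ g h, v (g * h) = ((ρ h).map (Int.cast : ℤ → ℂ)).mulVec (v g) + v h}
  add_mem' := by
    intro v w hv hw g h
    simp only [Pi.add_apply, hv g h, hw g h, Matrix.mulVec_add]
    abel
  zero_mem' := by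
    intro g h
    simp
  smul_mem' := by
    intro c v hv g h
    simp only [Pi.smul_apply, hv g h, Matrix.mulVec_smul, smul_add]

/-- The integer-valued cocycles. -/
def intCocycles : Submodule ℤ (cocycleSubmodule ρ) where
  carrier := {v | ∀ g j, ∃ a : ℤ, (v : G → Fin n → ℂ) g j = a}
  add_mem' := by
    intro v w hv hw g j
    obtain ⟨a, ha⟩ := hv g j
    obtain ⟨b, hb⟩ := hw g j
    refine ⟨a + b, ?_⟩
    simp [ha, hb]
  zero_mem' := by
    intro g j
    exact ⟨0, by simp⟩
  smul_mem' := by
    intro c v hv g j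
    obtain ⟨a, ha⟩ := hv g j
    refine ⟨c * a, ?_⟩
    simp [ha]

variable {ρ}

theorem mem_cocycleSubmodule_iff {v : G → Fin n → ℂ} :
    v ∈ cocycleSubmodule ρ ↔
      ∀ g h, v (g * h) = ((ρ h).map (Int.cast : ℤ → ℂ)).mulVec (v g) + v h := Iff.rfl

theorem mem_intCocycles_iff {v : cocycleSubmodule ρ} :
    v ∈ intCocycles ρ ↔ ∀ g j, ∃ a : ℤ, (v : G → Fin n → ℂ) g j = a := Iff.rfl

theorem cocycle_apply_one (h1 : ρ 1 = 1) {v : G → Fin n → ℂ} (hv : v ∈ cocycleSubmodule ρ) :
    v 1 = 0 := by
  have h := hv 1 1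
  rw [mul_one, h1, Matrix.map_one _ Int.cast_zero Int.cast_one, Matrix.one_mulVec] at h
  have : v 1 + 0 = v 1 + v 1 := by rw [add_zero]; exact h
  exact (add_left_cancel this).symm

theorem cocycle_apply_inv (h1 : ρ 1 = 1) {v : G → Fin n → ℂ} (hv : v ∈ cocycleSubmodule ρ)
    (g : G) : v g⁻¹ = -((ρ g⁻¹).map (Int.cast : ℤ → ℂ)).mulVec (v g) := by
  have h := hv g g⁻¹
  rw [mul_inv_cancel, cocycle_apply_one h1 hv] at h
  exact eq_neg_of_add_eq_zero_right h.symm

/-- If the values of a cocycle on a generating set have all coordinates in an additive subgroup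
`A` of `ℂ`, then so do all its values. -/
theorem cocycle_coord_mem (h1 : ρ 1 = 1) (A : AddSubgroup ℂ) {S : Set G}
    (hS : Subgroup.closure S = ⊤) {v : G → Fin n → ℂ} (hv : v ∈ cocycleSubmodule ρ)
    (hvS : ∀ s ∈ S, ∀ j, v s j ∈ A) : ∀ g j, v g j ∈ A := by
  have hmulVec : ∀ (M : Matrix (Fin n) (Fin n) ℤ) (w : Fin n → ℂ), (∀ j, w j ∈ A) →
      ∀ j, ((M.map (Int.cast : ℤ → ℂ)).mulVec w) j ∈ A := by
    intro M w hw j
    rw [Matrix.mulVec, dotProduct]
    refine A.sum_mem fun i _ => ?_
    rw [Matrix.map_apply, ← zsmul_eq_mul]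
    exact A.zsmul_mem (hw i) _
  intro g
  have hg : g ∈ Subgroup.closure S := hS ▸ Subgroup.mem_top g
  induction hg using Subgroup.closure_induction with
  | mem x hx => exact hvS x hx
  | one =>
    intro j
    rw [cocycle_apply_one h1 hv]
    exact A.zero_mem
  | mul x y _ _ hx hy =>
    intro j
    rw [hv x y, Pi.add_apply]
    exact A.add_mem (hmulVec _ _ hx j) (hy j)
  | inv x _ hx =>
    intro j
    rw [cocycle_apply_inv h1 hv, Pi.neg_apply]
    exact A.neg_mem (hmulVec _ _ hx j)

/-- A cocycle vanishing on a generating set vanishes. -/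
theorem cocycle_eq_zero_of_generators (h1 : ρ 1 = 1) {S : Set G}
    (hS : Subgroup.closure S = ⊤) {v : G → Fin n → ℂ} (hv : v ∈ cocycleSubmodule ρ)
    (hvS : ∀ s ∈ S, v s = 0) : v = 0 := by
  have h := cocycle_coord_mem h1 ⊥ hS hv (fun s hs j => by rw [hvS s hs]; exact AddSubgroup.zero_mem _)
  funext g j
  exact (AddSubgroup.mem_bot).1 (h g j)

/-- The integer-valued cocycles of a finitely generated group form a finitely generated
`ℤ`-module. -/
theorem intCocycles_fg [Group.FG G] (h1 : ρ 1 = 1) (_hmul : ∀ g h, ρ (g * h) = ρ h * ρ g) :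
    (intCocycles ρ).FG := by
  obtain ⟨S, hS⟩ := (Group.FG.out : (⊤ : Subgroup G).FG)
  -- integer valued functions on `S` inside complex valued ones
  let ι : (S → Fin n → ℤ) →ₗ[ℤ] (S → Fin n → ℂ) :=
    { toFun := fun f s j => (f s j : ℂ)
      map_add' := by intro f g; funext s j; simp
      map_smul' := by intro c f; funext s j; simp }
  have hNoeth : IsNoetherian ℤ (LinearMap.range ι) := inferInstance
  -- evaluation on `S`
  let ev : (intCocycles ρ) →ₗ[ℤ] (S → Fin n → ℂ) :=
    { toFun := fun v s j => ((v : cocycleSubmodule ρ) : G → Fin n → ℂ) s j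
      map_add' := by intro v w; funext s j; simp
      map_smul' := by intro c v; funext s j; simp }
  have hev : ∀ v, ev v ∈ LinearMap.range ι := by
    intro v
    have hv := v.2
    rw [mem_intCocycles_iff] at hv
    choose a ha using hv
    refine ⟨fun s j => a s j, ?_⟩
    funext s j
    exact (ha s j).symm
  let ev' : (intCocycles ρ) →ₗ[ℤ] (LinearMap.range ι) := ev.codRestrict _ hev
  have hinj : Function.Injective ev' := by
    rw [← LinearMap.ker_eq_bot, LinearMap.ker_eq_bot']
    intro v hv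
    have h0 : ev v = 0 := by
      have := congrArg Subtype.val hv
      simpa [ev'] using this
    have hzero : ((v : cocycleSubmodule ρ) : G → Fin n → ℂ) = 0 := by
      apply cocycle_eq_zero_of_generators h1 hS (v : cocycleSubmodule ρ).2
      intro s hs
      funext j
      have := congrFun (congrFun h0 ⟨s, hs⟩) j
      simpa [ev] using this
    apply Subtype.ext
    apply Subtype.ext
    exact hzero
  have hfin : Module.Finite ℤ (intCocycles ρ) := Module.Finite.of_injective ev' hinj
  exact Module.Finite.iff_fg.1 hfin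

/-- Universal coefficients: the integer-valued cocycles span all complex-valued cocycles. -/
theorem span_intCocycles [Group.FG G] (h1 : ρ 1 = 1) (_hmul : ∀ g h, ρ (g * h) = ρ h * ρ g) :
    Submodule.span ℂ (intCocycles ρ : Set (cocycleSubmodule ρ)) = ⊤ := by
  rw [eq_top_iff]
  rintro ⟨v, hv⟩ -
  obtain ⟨S, hS⟩ := (Group.FG.out : (⊤ : Subgroup G).FG)
  -- the lattice generated by the coordinates of the values on generators
  let A : Submodule ℤ ℂ := Submodule.span ℤ (Set.range fun p : S × Fin n => v p.1 p.2)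
  have hAfg : A.FG := Submodule.fg_span (Set.finite_range _)
  have hAfin : Module.Finite ℤ A := Module.Finite.iff_fg.2 hAfg
  have hAfree : Module.Free ℤ A := Module.free_of_finite_type_torsion_free'
  let b := Module.Free.chooseBasis ℤ A
  have hA : ∀ g j, v g j ∈ A := by
    have := cocycle_coord_mem h1 A.toAddSubgroup hS hv (fun s hs j =>
      Submodule.subset_span ⟨(⟨s, hs⟩, j), rfl⟩)
    exact this
  -- the coordinate cocycles
  let w : Module.Free.ChooseBasisIndex ℤ A → G → Fin n → ℂ :=
    fun β g j => ((b.repr ⟨v g j, hA g j⟩ β : ℤ) : ℂ)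
  have hw : ∀ β, w β ∈ cocycleSubmodule ρ := by
    intro β g h
    funext j
    have hsub : (⟨v (g * h) j, hA (g * h) j⟩ : A) =
        (∑ i, (ρ h j i) • (⟨v g i, hA g i⟩ : A)) + ⟨v h j, hA h j⟩ := by
      apply Subtype.ext
      rw [Submodule.coe_add, Submodule.coe_sum]
      simp only [Submodule.coe_smul_of_tower]
      rw [hv g h, Pi.add_apply, Matrix.mulVec, dotProduct]
      congr 1
      refine Finset.sum_congr rfl fun i _ => ?_
      rw [Matrix.map_apply, zsmul_eq_mul]
    show ((b.repr ⟨v (g * h) j, hA (g * h) j⟩ β : ℤ) : ℂ) =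
      (((ρ h).map (Int.cast : ℤ → ℂ)).mulVec (w β g) + w β h) j
    rw [hsub, map_add, map_sum, Finsupp.add_apply, Finsupp.finsetSum_apply, Pi.add_apply,
      Matrix.mulVec, dotProduct, Int.cast_add, Int.cast_sum]
    congr 1
    refine Finset.sum_congr rfl fun i _ => ?_
    rw [map_smul, Finsupp.smul_apply, smul_eq_mul, Int.cast_mul, Matrix.map_apply]
  have hwint : ∀ β, (⟨w β, hw β⟩ : cocycleSubmodule ρ) ∈ intCocycles ρ := by
    intro β g j
    exact ⟨b.repr ⟨v g j, hA g j⟩ β, rfl⟩
  have hsum : (⟨v, hv⟩ : cocycleSubmodule ρ) =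
      ∑ β, ((b β : A) : ℂ) • (⟨w β, hw β⟩ : cocycleSubmodule ρ) := by
    apply Subtype.ext
    rw [Submodule.coe_sum]
    funext g j
    rw [Finset.sum_apply, Finset.sum_apply]
    have hrepr := b.sum_repr ⟨v g j, hA g j⟩
    have hval := congrArg (Subtype.val) hrepr
    rw [Submodule.coe_sum] at hval
    have hval' : ∑ i, (((b.repr ⟨v g j, hA g j⟩) i • b i : A) : ℂ) = v g j := hval
    show v g j = _
    rw [← hval']
    refine Finset.sum_congr rfl fun β _ => ?_
    simp only [Submodule.coe_smul_of_tower, Pi.smul_apply, smul_eq_mul, zsmul_eq_mul]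
    show _ = ((b β : A) : ℂ) * w β g j
    rw [mul_comm]
  rw [hsum]
  exact Submodule.sum_mem _ fun β _ =>
    Submodule.smul_mem _ _ (Submodule.subset_span (hwint β))

end Fermat.Agent.S22
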