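import Mathlib

set_option autoImplicit false

namespace Fermat.Agent.S22

open UpperHalfPlane Derivative ModularForm Filter Function
open scoped Manifold MatrixGroups Topology Real

local notation "𝕢" => Periodic.qParam

/-- Holomorphic, `h`-periodic functions on the upper half plane vanishing at `i∞`. -/
def IsCuspPeriodicFun (h : ℝ) (g : ℍ → ℂ) : Prop :=
  MDiff g ∧ (∀ z : ℍ, g (h +ᵥ z) = g z) ∧ UpperHalfPlane.IsZeroAtImInfty g

theorem cuspPrim_periodic_comp_ofComplex {h : ℝ} {g : ℍ → ℂ}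
    (hg : ∀ z : ℍ, g (h +ᵥ z) = g z) : Periodic (g ∘ ofComplex) h := by
  intro w
  by_cases hw : 0 < Complex.im w
  · have hw' : 0 < Complex.im (w + h) := by simpa using hw
    simp only [comp_apply, ofComplex_apply_of_im_pos hw', ofComplex_apply_of_im_pos hw]
    rw [← hg ⟨w, hw⟩]
    congr 1
    ext
    simp [UpperHalfPlane.coe_vadd, add_comm]
  · have hw0 : Complex.im w ≤ 0 := not_lt.mp hw
    have hw' : Complex.im (w + h) ≤ 0 := by simpa using hw0
    simp [ofComplex_apply_of_im_nonpos hw', ofComplex_apply_of_im_nonpos hw0]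

theorem cuspPrim_qParam_add_period {h : ℝ} (hh : h ≠ 0) (z : ℂ) : 𝕢 h (z + h) = 𝕢 h z := by
  have hh' : (h : ℂ) ≠ 0 := by exact_mod_cast hh
  simp only [Periodic.qParam]
  rw [show 2 * (π : ℂ) * Complex.I * (z + h) / h = 2 * π * Complex.I * z / h + 2 * π * Complex.I by
    field_simp]
  rw [Complex.exp_add, Complex.exp_two_pi_mul_I, mul_one]

/-- One step: a cusp-periodic function has a cusp-periodic primitive for `D`. -/
theorem cuspPrim_exists_primitive {h : ℝ} (hh : 0 < h) {g : ℍ → ℂ}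
    (hg : IsCuspPeriodicFun h g) : ∃ u, IsCuspPeriodicFun h u ∧ D u = g := by
  obtain ⟨hgdiff, hgper, hgzero⟩ := hg
  have hper : Periodic (g ∘ ofComplex) h := cuspPrim_periodic_comp_ofComplex hgper
  set G : ℂ → ℂ := cuspFunction h g with hGdef
  have hGdiff : DifferentiableOn ℂ G (Metric.ball 0 1) :=
    differentiableOn_cuspFunction_ball hh hper hgdiff hgzero.isBoundedAtImInfty
  have hG0 : G 0 = 0 := by
    rw [hGdef, UpperHalfPlane.cuspFunction]
    exact Periodic.cuspFunction_zero_of_zero_at_inf hh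
      (hgzero.comp tendsto_comap_im_ofComplex)
  have hball : Metric.ball (0 : ℂ) 1 ∈ 𝓝 (0 : ℂ) := Metric.ball_mem_nhds 0 one_pos
  have hG1diff : DifferentiableOn ℂ (dslope G 0) (Metric.ball 0 1) :=
    (Complex.differentiableOn_dslope hball).mpr hGdiff
  obtain ⟨H, hH0, hHderiv⟩ := hG1diff.isExactOn_ball.with_val_at 0 0
  have hG1mul : ∀ q : ℂ, q ≠ 0 → dslope G 0 q * q = G q := by
    intro q hq
    rw [dslope_of_ne _ hq, slope_def_field, hG0, sub_zero, sub_zero, div_mul_cancel₀ _ hq]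
  have hqball : ∀ z : ℍ, 𝕢 h (z : ℂ) ∈ Metric.ball (0 : ℂ) 1 := by
    intro z
    rw [mem_ball_zero_iff]
    exact Periodic.norm_qParam_lt_one hh z.im_pos
  let u : ℍ → ℂ := fun z => (h : ℂ) * H (𝕢 h (z : ℂ))
  have hh' : (h : ℂ) ≠ 0 := by exact_mod_cast hh.ne'
  -- derivative of `u ∘ ofComplex` at points of the upper half plane
  have hderiv : ∀ z : ℍ, HasDerivAt (u ∘ ofComplex) (2 * π * Complex.I * g z) (z : ℂ) := by
    intro z
    have hq : HasDerivAt (𝕢 h) (𝕢 h (z : ℂ) * (2 * π * Complex.I / h)) (z : ℂ) := by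
      have : HasDerivAt (fun w : ℂ => 2 * π * Complex.I * w / h) (2 * π * Complex.I / h) (z : ℂ) := by
        simpa using ((hasDerivAt_id (z : ℂ)).const_mul (2 * π * Complex.I)).div_const (h : ℂ)
      exact this.cexp
    have hH := hHderiv _ (hqball z)
    have hcomp : HasDerivAt (fun w : ℂ => (h : ℂ) * H (𝕢 h w))
        ((h : ℂ) * (dslope G 0 (𝕢 h (z : ℂ)) * (𝕢 h (z : ℂ) * (2 * π * Complex.I / h)))) (z : ℂ) :=
      (hH.comp (z : ℂ) hq).const_mul (h : ℂ)
    have hval : (h : ℂ) * (dslope G 0 (𝕢 h (z : ℂ)) * (𝕢 h (z : ℂ) * (2 * π * Complex.I / h)))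
        = 2 * π * Complex.I * g z := by
      have hGz : G (𝕢 h (z : ℂ)) = g z := eq_cuspFunction z hh.ne' hper
      rw [← mul_assoc (dslope G 0 _), hG1mul _ (Periodic.qParam_ne_zero _), hGz]
      field_simp
    rw [hval] at hcomp
    refine hcomp.congr_of_eventuallyEq ?_
    filter_upwards [isOpen_upperHalfPlaneSet.mem_nhds z.im_pos] with w hw
    simp only [comp_apply, u, ofComplex_apply_of_im_pos hw, UpperHalfPlane.coe_mk]
  refine ⟨u, ⟨?_, ?_, ?_⟩, ?_⟩
  · intro z
    exact mdifferentiableAt_iff.mpr (hderiv z).differentiableAt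
  · intro z
    simp only [u]
    rw [UpperHalfPlane.coe_vadd, add_comm, cuspPrim_qParam_add_period hh.ne']
  · -- zero at infinity
    have hHcont : ContinuousAt H 0 := (hHderiv 0 (Metric.mem_ball_self one_pos)).continuousAt
    have h1 : Tendsto (fun z : ℍ => H (𝕢 h (z : ℂ))) atImInfty (𝓝 (H 0)) :=
      hHcont.tendsto.comp (qParam_tendsto_atImInfty hh)
    rw [hH0] at h1
    have h2 := h1.const_mul (h : ℂ)
    rw [mul_zero] at h2
    exact h2
  · ext z
    simp only [normalizedDerivOfComplex]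
    rw [(hderiv z).deriv]
    field_simp

theorem cuspPrim_exists_iterate_primitive {h : ℝ} (hh : 0 < h) {g : ℍ → ℂ}
    (hg : IsCuspPeriodicFun h g) (n : ℕ) : ∃ u, IsCuspPeriodicFun h u ∧ D^[n] u = g := by
  induction n generalizing g with
  | zero => exact ⟨g, hg, rfl⟩
  | succ n ih =>
    obtain ⟨u₁, hu₁, hD₁⟩ := cuspPrim_exists_primitive hh hg
    obtain ⟨u, hu, hD⟩ := ih hu₁
    refine ⟨u, hu, ?_⟩
    rw [Function.iterate_succ_apply', hD, hD₁]

end Fermat.Agent.S22
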