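import Mathlib

set_option autoImplicit false

namespace Fermat.Agent.S22

open Module

/-- If a finitely generated `ℤ`-lattice `Λ` of linear functionals on `V` is stable under
precomposition with every element of `G` and separates the points of `V`, then the
`ℤ`-algebra generated by `G` is a finitely generated `ℤ`-module. -/
theorem finite_adjoin_of_stable_separating {K : Type*} [CommRing K] {V : Type*} [AddCommGroup V]
    [Module K V] (G : Set (Module.End K V)) (Λ : Submodule ℤ (Module.Dual K V)) (hfg : Λ.FG)
    (hstab : ∀ g ∈ G, ∀ l ∈ Λ, l ∘ₗ g ∈ Λ)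
    (hsep : ∀ v : V, (∀ l ∈ Λ, l v = 0) → v = 0) :
    Module.Finite ℤ (Algebra.adjoin ℤ G) := by
  classical
  -- stability for the whole adjoin
  have hstabA : ∀ t ∈ Algebra.adjoin ℤ G, ∀ l ∈ Λ, l ∘ₗ t ∈ Λ := by
    intro t ht
    induction ht using Algebra.adjoin_induction with
    | mem g hg => exact hstab g hg
    | algebraMap n =>
      intro l hl
      have : l ∘ₗ (algebraMap ℤ (Module.End K V) n) = n • l := by
        ext v
        simp
      rw [this]
      exact Λ.smul_mem n hl
    | add a b _ _ ha hb =>
      intro l hl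
      rw [LinearMap.comp_add]
      exact Λ.add_mem (ha l hl) (hb l hl)
    | mul a b _ _ ha hb =>
      intro l hl
      have : l ∘ₗ (a * b) = (l ∘ₗ a) ∘ₗ b := rfl
      rw [this]
      exact hb _ (ha l hl)
  obtain ⟨s, hs⟩ := hfg
  have : Module.Finite ℤ Λ := Module.Finite.iff_fg.mpr ⟨s, hs⟩
  have hsΛ : ∀ i : s, (i : Module.Dual K V) ∈ Λ := fun i => hs ▸ Submodule.subset_span i.2
  let Φ : (Algebra.adjoin ℤ G) →ₗ[ℤ] (s → Λ) :=
    { toFun := fun t i => ⟨(i : Module.Dual K V) ∘ₗ (t : Module.End K V),
        hstabA t.1 t.2 _ (hsΛ i)⟩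
      map_add' := by
        intro a b
        ext i v
        simp
      map_smul' := by
        intro n a
        ext i v
        simp }
  have hΦ : Function.Injective Φ := by
    rw [← LinearMap.ker_eq_bot, LinearMap.ker_eq_bot']
    intro t ht
    have h1 : ∀ i : s, (i : Module.Dual K V) ∘ₗ (t : Module.End K V) = 0 := by
      intro i
      have := congrFun ht i
      exact congrArg Subtype.val this
    have h2 : ∀ l ∈ Λ, l ∘ₗ (t : Module.End K V) = 0 := by
      intro l hl
      rw [← hs] at hl
      induction hl using Submodule.span_induction with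
      | mem x hx => exact h1 ⟨x, hx⟩
      | zero => simp
      | add x y _ _ hx hy => rw [LinearMap.add_comp, hx, hy, add_zero]
      | smul n x _ hx => rw [LinearMap.smul_comp, hx, smul_zero]
    apply Subtype.ext
    ext v
    apply hsep
    intro l hl
    have := LinearMap.congr_fun (h2 l hl) v
    simpa using this
  exact Module.Finite.of_injective Φ hΦ

end Fermat.Agent.S22
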