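import Mathlib
import Fermat.Prelude.Sol.S_ModularForm_heckeT_slash_eq_self_of_mem_Gamma0

set_option autoImplicit false

namespace Fermat.Agent.S22

open P2MW.S_ModularForm_heckeT_slash_eq_self_of_mem_Gamma0.ModularForm.HeckeSlashInvariance
open ModularForm CongruenceSubgroup Matrix.SpecialLinearGroup
open scoped MatrixGroups

/-- Integer matrix of `heckeMatrix p j`. -/
def heckeMatrixInt (p j : ℕ) : Matrix (Fin 2) (Fin 2) ℤ := !![1, (j : ℤ); 0, (p : ℤ)]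

/-- Integer matrix of `heckeDiagMatrix p`. -/
def heckeDiagMatrixInt (p : ℕ) : Matrix (Fin 2) (Fin 2) ℤ := !![(p : ℤ), 0; 0, 1]

theorem heckeMatrix_coe_int {p : ℕ} (hp : p ≠ 0) (j : ℕ) (a b : Fin 2) :
    (heckeMatrix p j : Matrix (Fin 2) (Fin 2) ℝ) a b = ((heckeMatrixInt p j a b : ℤ) : ℝ) := by
  rw [val_heckeMatrix hp]
  fin_cases a <;> fin_cases b <;> simp [heckeMatrixInt]

theorem heckeDiagMatrix_coe_int {p : ℕ} (hp : p ≠ 0) (a b : Fin 2) :
    (heckeDiagMatrix p : Matrix (Fin 2) (Fin 2) ℝ) a b = ((heckeDiagMatrixInt p a b : ℤ) : ℝ) := by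
  rw [val_heckeDiagMatrix hp]
  fin_cases a <;> fin_cases b <;> simp [heckeDiagMatrixInt]

/-- Integer matrices of the representatives `heckeRep p x`. -/
def heckeRepInt (p : ℕ) (x : OnePoint (ZMod p)) : Matrix (Fin 2) (Fin 2) ℤ :=
  x.elim (heckeDiagMatrixInt p) (fun j => heckeMatrixInt p j.val)

theorem heckeRep_coe_int {p : ℕ} (hp : p ≠ 0) (x : OnePoint (ZMod p)) (a b : Fin 2) :
    (heckeRep p x : Matrix (Fin 2) (Fin 2) ℝ) a b = ((heckeRepInt p x a b : ℤ) : ℝ) := by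
  induction x using OnePoint.rec with
  | infty => exact heckeDiagMatrix_coe_int hp a b
  | coe j => exact heckeMatrix_coe_int hp j.val a b

theorem heckeRep_det_pos (p : ℕ) (x : OnePoint (ZMod p)) : 0 < (heckeRep p x).det.val := by
  induction x using OnePoint.rec with
  | infty => exact det_heckeDiagMatrix_pos p
  | coe j => exact det_heckeMatrix_pos p j.val

/-- Reindexing the Hecke sum for `T_p` over `OnePoint (ZMod p)`. -/
theorem sum_heckeRep {M : Type*} [AddCommMonoid M] {p : ℕ} [NeZero p] (F : GL (Fin 2) ℝ → M) :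
    ∑ j ∈ Finset.range p, F (heckeMatrix p j) + F (heckeDiagMatrix p) =
      ∑ x : OnePoint (ZMod p), F (heckeRep p x) := by
  rw [sum_range_eq_sum_zmod (fun j => F (heckeMatrix p j)), add_comm]
  exact (Fintype.sum_option (fun x : OnePoint (ZMod p) => F (heckeRep p x))).symm

/-- Reindexing the Hecke sum for `U_p` over `ZMod p`. -/
theorem sum_heckeMatrix_zmod {M : Type*} [AddCommMonoid M] {p : ℕ} [NeZero p]
    (F : GL (Fin 2) ℝ → M) :
    ∑ j ∈ Finset.range p, F (heckeMatrix p j) = ∑ x : ZMod p, F (heckeMatrix p x.val) :=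
  sum_range_eq_sum_zmod (fun j => F (heckeMatrix p j))

/-- Coset bookkeeping for `T_p`, `p ∤ N`. -/
theorem heckeT_coset (N : ℕ) {p : ℕ} [Fact p.Prime] (hpN : ¬ p ∣ N) (γ : Gamma0 N) :
    ∃ (σ : Equiv.Perm (OnePoint (ZMod p))) (γ' : OnePoint (ZMod p) → Gamma0 N),
      ∀ x, heckeRep p x * mapGL ℝ (γ : SL(2, ℤ)) =
        mapGL ℝ (γ' x : SL(2, ℤ)) * heckeRep p (σ x) := by
  have hcN : (N : ℤ) ∣ (γ : SL(2, ℤ)) 1 0 :=
    (ZMod.intCast_zmod_eq_zero_iff_dvd _ _).mp (Gamma0_mem.mp γ.2)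
  have hex := fun x => heckeRep_mul hpN (γ : SL(2, ℤ)) hcN x
  refine ⟨MulAction.toPerm (redMatrix p (γ : SL(2, ℤ))),
    fun x => ⟨(hex x).choose, Gamma0_mem.mpr
      ((ZMod.intCast_zmod_eq_zero_iff_dvd _ _).mpr (hex x).choose_spec.1)⟩, fun x => ?_⟩
  exact (hex x).choose_spec.2

/-- Coset bookkeeping for `U_p`, `p ∣ N`. -/
theorem heckeU_coset (N : ℕ) {p : ℕ} [NeZero p] (hpN : p ∣ N) (γ : Gamma0 N) :
    ∃ (σ : Equiv.Perm (ZMod p)) (γ' : ZMod p → Gamma0 N),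
      ∀ x, heckeMatrix p x.val * mapGL ℝ (γ : SL(2, ℤ)) =
        mapGL ℝ (γ' x : SL(2, ℤ)) * heckeMatrix p (σ x).val := by
  have hcN : (N : ℤ) ∣ (γ : SL(2, ℤ)) 1 0 :=
    (ZMod.intCast_zmod_eq_zero_iff_dvd _ _).mp (Gamma0_mem.mp γ.2)
  have hc : (p : ℤ) ∣ (γ : SL(2, ℤ)) 1 0 := (Int.natCast_dvd_natCast.mpr hpN).trans hcN
  have hex := fun x => heckeMatrix_mul_of_dvd (γ : SL(2, ℤ)) hc x
  refine ⟨affinePerm (γ : SL(2, ℤ)) ((ZMod.intCast_zmod_eq_zero_iff_dvd _ _).mpr hc),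
    fun x => ⟨(hex x).choose, ?_⟩, fun x => (hex x).choose_spec.2⟩
  rw [Gamma0_mem, (hex x).choose_spec.1]
  push_cast
  rw [Gamma0_mem.mp γ.2, mul_zero]

end Fermat.Agent.S22
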