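import Mathlib
import Fermat.Agent.S22.HeckeRelation
import Fermat.Agent.S22.HeckeCosets

set_option autoImplicit false

namespace Fermat.Agent.S22

open P2MW.S_ModularForm_heckeT_slash_eq_self_of_mem_Gamma0.ModularForm.HeckeSlashInvariance
open UpperHalfPlane ModularForm CongruenceSubgroup Matrix.SpecialLinearGroup
open scoped MatrixGroups

/-- The normalised weight `-w` slash by a matrix of positive determinant, unnormalised. -/
theorem det_pow_mul_slash_apply (u : ℍ → ℂ) (w : ℕ) (g : GL (Fin 2) ℝ) (hdet : 0 < g.det.val)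
    (z : ℍ) :
    ((g.det.val : ℝ) : ℂ) ^ (w + 1) * (u ∣[-(w : ℤ)] g) z = denom g z ^ w * u (g • z) := by
  have hσ : UpperHalfPlane.σ g = ContinuousAlgEquiv.refl ℝ ℂ := by
    rw [UpperHalfPlane.σ, if_pos hdet]
  have hd : ((g.det.val : ℝ) : ℂ) ≠ 0 := Complex.ofReal_ne_zero.mpr hdet.ne'
  rw [ModularForm.slash_apply, hσ, abs_of_pos hdet, neg_neg, zpow_natCast]
  simp only [ContinuousAlgEquiv.refl_apply]
  have : ((g.det.val : ℝ) : ℂ) ^ (w + 1) * ((g.det.val : ℝ) : ℂ) ^ (-(w : ℤ) - 1) = 1 := by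
    rw [← zpow_natCast, ← zpow_add₀ hd]
    have : ((w + 1 : ℕ) : ℤ) + (-(w : ℤ) - 1) = 0 := by push_cast; ring
    rw [this, zpow_zero]
  calc ((g.det.val : ℝ) : ℂ) ^ (w + 1) *
        (u (g • z) * ((g.det.val : ℝ) : ℂ) ^ (-(w : ℤ) - 1) * denom g z ^ w)
      = (((g.det.val : ℝ) : ℂ) ^ (w + 1) * ((g.det.val : ℝ) : ℂ) ^ (-(w : ℤ) - 1)) *
          (denom g z ^ w * u (g • z)) := by ring
    _ = denom g z ^ w * u (g • z) := by rw [this, one_mul]

section

variable {V : Type*} [AddCommGroup V] [Module ℂ V] {w : ℕ} {N : ℕ}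
  {E : V →ₗ[ℂ] (ℍ → ℂ)}

/-- Hecke stability of the period lattice for `T_p`, `p ∤ N`. -/
theorem periodCoeff_comp_heckeT_mem_span (h : HasPeriodPolys w (Gamma0 N) E) {p : ℕ}
    [Fact p.Prime] (hpN : ¬ p ∣ N) (t : V →ₗ[ℂ] V)
    (hEt : ∀ f, E (t f) = ∑ j ∈ Finset.range p, ((p : ℂ) ^ (w + 1)) • (E f ∣[-(w : ℤ)] heckeMatrix p j)
      + ((p : ℂ) ^ (w + 1)) • (E f ∣[-(w : ℤ)] heckeDiagMatrix p))
    (γ : Gamma0 N) (j : Fin (w + 1)) :
    periodCoeff h γ j ∘ₗ t ∈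
      Submodule.span ℤ (Set.range fun q : Gamma0 N × Fin (w + 1) => periodCoeff h q.1 q.2) := by
  have hp : p ≠ 0 := (Fact.out : p.Prime).ne_zero
  have : NeZero p := ⟨hp⟩
  refine periodCoeff_comp_hecke_mem_span h (heckeRep p) (heckeRepInt p)
    (fun x a b => heckeRep_coe_int hp x a b) (heckeRep_det_pos p) t ?_
    (fun γ => heckeT_coset N hpN γ) γ j
  intro f z
  rw [hEt f, sum_heckeRep (fun g => ((p : ℂ) ^ (w + 1)) • (E f ∣[-(w : ℤ)] g)),
    Finset.sum_apply]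
  refine Finset.sum_congr rfl fun x _ => ?_
  rw [Pi.smul_apply, smul_eq_mul, ← det_pow_mul_slash_apply (E f) w (heckeRep p x)
    (heckeRep_det_pos p x) z]
  congr 2
  induction x using OnePoint.rec with
  | infty => rw [heckeRep_infty, det_heckeDiagMatrix hp]; simp
  | coe i => rw [heckeRep_coe, det_heckeMatrix hp]; simp

/-- Hecke stability of the period lattice for `U_p`, `p ∣ N`. -/
theorem periodCoeff_comp_heckeU_mem_span (h : HasPeriodPolys w (Gamma0 N) E) {p : ℕ}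
    (hp : p ≠ 0) (hpN : p ∣ N) (t : V →ₗ[ℂ] V)
    (hEt : ∀ f, E (t f) =
      ∑ j ∈ Finset.range p, ((p : ℂ) ^ (w + 1)) • (E f ∣[-(w : ℤ)] heckeMatrix p j))
    (γ : Gamma0 N) (j : Fin (w + 1)) :
    periodCoeff h γ j ∘ₗ t ∈
      Submodule.span ℤ (Set.range fun q : Gamma0 N × Fin (w + 1) => periodCoeff h q.1 q.2) := by
  have : NeZero p := ⟨hp⟩
  refine periodCoeff_comp_hecke_mem_span h (fun x : ZMod p => heckeMatrix p x.val)
    (fun x : ZMod p => heckeMatrixInt p x.val)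
    (fun x a b => heckeMatrix_coe_int hp x.val a b) (fun x => det_heckeMatrix_pos p x.val) t ?_
    (fun γ => heckeU_coset N hpN γ) γ j
  intro f z
  rw [hEt f, sum_heckeMatrix_zmod (fun g => ((p : ℂ) ^ (w + 1)) • (E f ∣[-(w : ℤ)] g)),
    Finset.sum_apply]
  refine Finset.sum_congr rfl fun x _ => ?_
  rw [Pi.smul_apply, smul_eq_mul, ← det_pow_mul_slash_apply (E f) w (heckeMatrix p x.val)
    (det_heckeMatrix_pos p x.val) z, det_heckeMatrix hp]
  simp

end

end Fermat.Agent.S22
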