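import Mathlib
import Fermat.Prelude.Thm_Subgroup_IsArithmetic_exists_nat_mem_strictPeriods_conj
import Fermat.Agent.S22.Bol
import Fermat.Agent.S22.CuspPrimitive

set_option autoImplicit false

namespace Fermat.Agent.S22

open UpperHalfPlane Derivative ModularForm CongruenceSubgroup Matrix.SpecialLinearGroup
open scoped Manifold MatrixGroups Pointwise

/-! ### Linearity of iterates of `D` -/

theorem injAux_iterate_D_const (c : ℂ) (n : ℕ) (hn : 1 ≤ n) :
    D^[n] (fun _ : ℍ => c) = 0 := by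
  obtain ⟨m, rfl⟩ : ∃ m, n = m + 1 := ⟨n - 1, by omega⟩
  rw [Function.iterate_succ_apply, normalizedDerivOfComplex_const]
  clear hn
  induction m with
  | zero => rfl
  | succ m ih =>
    rw [Function.iterate_succ_apply]
    have : D (0 : ℍ → ℂ) = 0 := normalizedDerivOfComplex_const 0
    rw [this]
    exact ih

/-! ### Slash invariant forms from invariant functions, periodicity of translates -/

/-- An invariant function as a `SlashInvariantForm`. -/
def injAuxSIF {N : ℕ} (k : ℤ) (u : ℍ → ℂ) (hinv : ∀ γ ∈ Gamma0 N, u ∣[k] γ = u) :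
    SlashInvariantForm ((Gamma0 N : Subgroup SL(2, ℤ)) : Subgroup (GL (Fin 2) ℝ)) k where
  toFun := u
  slash_action_eq' := by
    rintro _ ⟨γ, hγ, rfl⟩
    exact hinv γ hγ

theorem injAux_slash_periodic {N : ℕ} (k : ℤ) (u : ℍ → ℂ)
    (hinv : ∀ γ ∈ Gamma0 N, u ∣[k] γ = u) (σ : SL(2, ℤ)) {h : ℝ}
    (hh : h ∈ (ConjAct.toConjAct (mapGL ℝ σ⁻¹) •
      ((Gamma0 N : Subgroup SL(2, ℤ)) : Subgroup (GL (Fin 2) ℝ))).strictPeriods) (z : ℍ) :
    (u ∣[k] σ) (h +ᵥ z) = (u ∣[k] σ) z := by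
  have hh' : h ∈ (ConjAct.toConjAct (mapGL ℝ σ)⁻¹ •
      ((Gamma0 N : Subgroup SL(2, ℤ)) : Subgroup (GL (Fin 2) ℝ))).strictPeriods := by
    rwa [← map_inv]
  exact SlashInvariantForm.vAdd_apply_of_mem_strictPeriods
    (SlashInvariantForm.translate (injAuxSIF k u hinv) (mapGL ℝ σ)) z hh'

/-! ### Translates of cusp forms are cusp-periodic -/

theorem injAux_isCuspPeriodic_slash {N : ℕ} [NeZero N] {k : ℤ}
    (f : CuspForm ((Gamma0 N : Subgroup SL(2, ℤ)) : Subgroup (GL (Fin 2) ℝ)) k)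
    (σ : SL(2, ℤ)) {h : ℝ}
    (hh : h ∈ (ConjAct.toConjAct (mapGL ℝ σ⁻¹) •
      ((Gamma0 N : Subgroup SL(2, ℤ)) : Subgroup (GL (Fin 2) ℝ))).strictPeriods) :
    IsCuspPeriodicFun h ((f : ℍ → ℂ) ∣[k] σ) := by
  refine ⟨?_, ?_, ?_⟩
  · rw [ModularForm.SL_slash]
    exact MDifferentiable.slash (CuspFormClass.holo f) k _
  · intro z
    refine injAux_slash_periodic k f ?_ σ hh z
    intro γ hγ
    exact SlashInvariantFormClass.slash_action_eq f _ ⟨γ, hγ, rfl⟩
  · have hc : IsCusp (mapGL ℝ σ • OnePoint.infty)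
        ((Gamma0 N : Subgroup SL(2, ℤ)) : Subgroup (GL (Fin 2) ℝ)) := by
      rw [Subgroup.IsArithmetic.isCusp_iff_isCusp_SL2Z, isCusp_SL2Z_iff']
      exact ⟨σ, rfl⟩
    have := f.zero_at_cusps' hc (mapGL ℝ σ) rfl
    rw [ModularForm.SL_slash]
    exact this

/-! ### A polynomial which is periodic along the upper half plane is constant -/

theorem injAux_polynomial_const_of_periodic (p : Polynomial ℂ) {M : ℝ} (hM : 0 < M)
    (hper : ∀ z : ℍ, p.eval ((M +ᵥ z : ℍ) : ℂ) = p.eval (z : ℂ)) (z : ℍ) :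
    p.eval (z : ℂ) = p.eval Complex.I := by
  have hI : ∀ m : ℕ, p.eval ((m : ℂ) * (M : ℂ) + Complex.I) = p.eval Complex.I := by
    intro m
    induction m with
    | zero => simp
    | succ m ih =>
      have him : 0 < (((m : ℂ) * (M : ℂ) + Complex.I)).im := by
        simp
      have := hper ⟨_, him⟩
      rw [UpperHalfPlane.coe_vadd] at this
      simp only at this
      rw [ih] at this
      rw [← this]
      congr 1
      push_cast
      ring
  set q : Polynomial ℂ := p - Polynomial.C (p.eval Complex.I) with hq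
  have hroots : Set.Infinite {x | q.IsRoot x} := by
    have hinj : Function.Injective fun m : ℕ => ((m : ℂ) * (M : ℂ) + Complex.I) := by
      intro a b hab
      simp only [add_left_inj] at hab
      have hM' : (M : ℂ) ≠ 0 := by exact_mod_cast hM.ne'
      have := mul_right_cancel₀ hM' hab
      exact_mod_cast this
    refine Set.infinite_of_injective_forall_mem hinj ?_
    intro m
    simp only [Set.mem_ofPred_eq, Polynomial.IsRoot, hq, Polynomial.eval_sub, Polynomial.eval_C]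
    rw [hI m, sub_self]
  have hq0 : q = 0 := Polynomial.eq_zero_of_infinite_isRoot q hroots
  have : p = Polynomial.C (p.eval Complex.I) := sub_eq_zero.mp hq0
  rw [this]
  simp

/-! ### Boundedness at all cusps of an invariant Eichler integral -/

theorem injAux_isBoundedAtImInfty_slash {N : ℕ} [NeZero N] (n : ℕ)
    (f : CuspForm ((Gamma0 N : Subgroup SL(2, ℤ)) : Subgroup (GL (Fin 2) ℝ)) (1 + n))
    (u : ℍ → ℂ) (hu : MDiff u) (hDu : D^[n] u = f)
    (hinv : ∀ γ ∈ Gamma0 N, u ∣[(1 - n : ℤ)] γ = u) (σ : SL(2, ℤ)) :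
    IsBoundedAtImInfty (u ∣[(1 - n : ℤ)] σ) := by
  obtain ⟨M, hMpos, hM⟩ := Subgroup.IsArithmetic.exists_nat_mem_strictPeriods_conj
    ((Gamma0 N : Subgroup SL(2, ℤ)) : Subgroup (GL (Fin 2) ℝ))
  have hh := hM σ⁻¹
  have hMpos' : (0 : ℝ) < M := by exact_mod_cast hMpos
  have hg := injAux_isCuspPeriodic_slash f σ hh
  obtain ⟨v, hv, hDv⟩ := cuspPrim_exists_iterate_primitive hMpos' hg n
  have hus : MDiff (u ∣[(1 - n : ℤ)] σ) := by
    rw [ModularForm.SL_slash]
    exact hu.slash _ _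
  have hbol : D^[n] (u ∣[(1 - n : ℤ)] σ) = (f : ℍ → ℂ) ∣[(1 + n : ℤ)] σ := by
    rw [bol_identity_SL hu n σ, hDu]
  have hw : D^[n] (u ∣[(1 - n : ℤ)] σ - v) = 0 := by
    rw [iterate_D_sub hus hv.1, hbol, hDv, sub_self]
  obtain ⟨p, -, hp⟩ := exists_polynomial_of_iterate_D_eq_zero n (hus.sub hv.1) hw
  have hper : ∀ z : ℍ, p.eval ((((M : ℕ) : ℝ) +ᵥ z : ℍ) : ℂ) = p.eval (z : ℂ) := by
    intro z
    rw [← hp, ← hp]
    simp only [Pi.sub_apply]
    rw [injAux_slash_periodic _ u hinv σ hh z, hv.2.1 z]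
  have hconst := injAux_polynomial_const_of_periodic p hMpos' hper
  have heq : u ∣[(1 - n : ℤ)] σ = v + fun _ => p.eval Complex.I := by
    ext z
    have h1 := hp z
    simp only [Pi.sub_apply] at h1
    simp only [Pi.add_apply]
    rw [← hconst z, ← h1]
    ring
  rw [heq]
  exact hv.2.2.isBoundedAtImInfty.add (Filter.const_boundedAtFilter _ _)

/-! ### Injectivity of the Eichler-Shimura cocycle map -/

/-- If the Eichler integral `u` of a cusp form `f` of weight `1 + n` (with `n ≥ 1`) on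
`Γ₀(N)` is invariant of weight `1 - n`, then `f = 0`. -/
theorem cuspForm_eq_zero_of_invariant_primitive {N : ℕ} [NeZero N] (n : ℕ) (hn : 1 ≤ n)
    (f : CuspForm ((Gamma0 N : Subgroup SL(2, ℤ)) : Subgroup (GL (Fin 2) ℝ)) (1 + n))
    (u : ℍ → ℂ) (hu : MDiff u) (hDu : D^[n] u = f)
    (hinv : ∀ γ ∈ Gamma0 N, u ∣[(1 - n : ℤ)] γ = u) : f = 0 := by
  -- `u` is a modular form of weight `1 - n`
  let U : ModularForm ((Gamma0 N : Subgroup SL(2, ℤ)) : Subgroup (GL (Fin 2) ℝ)) (1 - n) :=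
    { toSlashInvariantForm := injAuxSIF (1 - n) u hinv
      holo' := hu
      bdd_at_cusps' := by
        intro c hc
        rw [Subgroup.IsArithmetic.isCusp_iff_isCusp_SL2Z] at hc
        rw [OnePoint.isBoundedAt_iff_forall_SL2Z hc]
        intro σ _
        exact injAux_isBoundedAtImInfty_slash n f u hu hDu hinv σ }
  have hUu : (U : ℍ → ℂ) = u := rfl
  have hu_const : ∃ c : ℂ, u = fun _ => c := by
    rcases Nat.lt_or_ge 1 n with h1 | h1
    · have hneg : ((1 : ℤ) - n) < 0 := by omega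
      have := ModularForm.isZero_of_neg_weight hneg U
      refine ⟨0, ?_⟩
      rw [← hUu, this]
      rfl
    · have hn1 : n = 1 := le_antisymm h1 hn
      subst hn1
      obtain ⟨c, hc⟩ := ModularForm.eq_const_of_weight_zero
        (ModularForm.mcast (by norm_num) U :
          ModularForm ((Gamma0 N : Subgroup SL(2, ℤ)) : Subgroup (GL (Fin 2) ℝ)) 0)
      exact ⟨c, hc⟩
  obtain ⟨c, rfl⟩ := hu_const
  have h0 : (f : ℍ → ℂ) = 0 := by
    rw [← hDu]
    exact injAux_iterate_D_const c n hn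
  exact DFunLike.coe_injective h0

end Fermat.Agent.S22
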