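import Mathlib
import Fermat.Prelude.Def_CuspForm_HeckeAlgebra
import Fermat.Agent.S22.AbstractFinite
import Fermat.Agent.S22.HeckeStable

set_option autoImplicit false

namespace Fermat.Agent.S22

open UpperHalfPlane ModularForm CongruenceSubgroup
open scoped MatrixGroups

/-- Master reduction: the Hecke algebra is a finitely generated `ℤ`-module as soon as there is
a linear "Eichler integral" `E` with period polynomials, injectivity, and the Hecke relations. -/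
theorem heckeAlgebra_finite_of_eichler (N : ℕ) [NeZero N] (k : ℤ) (w : ℕ)
    (E : CuspForm (Gamma0 N) k →ₗ[ℂ] (ℍ → ℂ))
    (hpoly : HasPeriodPolys w (Gamma0 N) E)
    (hinj : ∀ f : CuspForm (Gamma0 N) k,
      (∀ γ : SL(2, ℤ), γ ∈ Gamma0 N → E f ∣[-(w : ℤ)] γ = E f) → f = 0)
    (hT : ∀ (p : ℕ) (hp : p.Prime) (hpN : ¬ p ∣ N) (f : CuspForm (Gamma0 N) k),
      E (CuspForm.heckeTLin k hp hpN f) =
        ∑ j ∈ Finset.range p, ((p : ℂ) ^ (w + 1)) • (E f ∣[-(w : ℤ)] heckeMatrix p j)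
          + ((p : ℂ) ^ (w + 1)) • (E f ∣[-(w : ℤ)] heckeDiagMatrix p))
    (hU : ∀ (q : ℕ) (hqN : q ∣ N) (_ : q.Prime) (f : CuspForm (Gamma0 N) k),
      E (CuspForm.heckeULin k hqN f) =
        ∑ j ∈ Finset.range q, ((q : ℂ) ^ (w + 1)) • (E f ∣[-(w : ℤ)] heckeMatrix q j))
    (S : Set ℕ) :
    Module.Finite ℤ (CuspForm.heckeAlgebra N k S) := by
  have : Group.FG (Gamma0 N) := gamma0_fg N
  refine finite_adjoin_of_period_cocycle (fun γ : Gamma0 N => periodMat w (γ : SL(2, ℤ)))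
    (periodCoeff hpoly) (fun g h j => periodCoeff_mul hpoly g h j) ?_
    (CuspForm.heckeGenerators N k S) ?_
  · intro f hf
    exact hinj f fun γ hγ => slash_eq_of_periodCoeff_eq_zero hpoly f hf γ hγ
  · rintro t (⟨ℓ, hℓ, hℓN, -, rfl⟩ | ⟨q, hqN, hq, -, rfl⟩) γ j
    · have : Fact ℓ.Prime := ⟨hℓ⟩
      exact periodCoeff_comp_heckeT_mem_span hpoly hℓN _ (hT ℓ hℓ hℓN) γ j
    · exact periodCoeff_comp_heckeU_mem_span hpoly hq.ne_zero hqN _ (hU q hqN hq) γ j

end Fermat.Agent.S22
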